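/-
Level lowering by patching: the cocycle of a derivation of the coefficient ring along the residue
map, applied to a lift of the residual representation.
-/
import Fermat.Agent.Deform.MatrixRep
import Fermat.Agent.FlatBound.Defs

set_option autoImplicit false
set_option linter.style.haveILetI false

noncomputable section

open IsLocalRing
open Fermat.Agent.Galois (GQ)
open Fermat.Agent.Deform (Mat2 mapHom HasMatrix)

namespace Fermat.Agent.LL

variable {T k : Type} [CommRing T] [Field k]

/-- A derivation along a ring map to a field. -/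
structure Tan (π : T →+* k) where
  D : T →+ k
  leib : ∀ a b, D (a * b) = π a * D b + D a * π b

namespace Tan

variable {π : T →+* k} (d : Tan π)

theorem D_one : d.D 1 = 0 := by
  have := d.leib 1 1
  rw [mul_one, _root_.map_one π, one_mul, mul_one, left_eq_add] at this
  exact this

theorem map_natCast (n : ℕ) : d.D (n : T) = 0 := by
  induction n with
  | zero => rw [Nat.cast_zero, map_zero]
  | succ n ih => rw [Nat.cast_succ, map_add, ih, d.D_one, add_zero]

theorem matrix_mul (A B : Mat2 T) :
    (A * B).map d.D = A.map π * B.map d.D + A.map d.D * B.map π := by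
  ext i j
  simp only [Matrix.map_apply, Matrix.add_apply, Matrix.mul_apply, map_sum, d.leib,
    Finset.sum_add_distrib]

theorem map_det (A : Mat2 T) : d.D A.det = (A.map d.D * (A.map π).adjugate).trace := by
  simp only [Matrix.det_fin_two, map_sub, d.leib, Matrix.adjugate_fin_two, Matrix.trace_fin_two,
    Matrix.mul_apply, Fin.sum_univ_two, Matrix.map_apply, Matrix.of_apply, Matrix.cons_val',
    Matrix.cons_val_zero, Matrix.cons_val_one, Matrix.empty_val', Matrix.cons_val_fin_one]
  ring

variable (r : GQ →* Mat2 T) (R : GQ →* Mat2 k)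

/-- The cocycle. -/
def cocycle (σ : GQ) : Mat2 k := (r σ).map d.D * R σ⁻¹

theorem cocycle_mul_apply (σ : GQ) : d.cocycle r R σ * R σ = (r σ).map d.D := by
  rw [cocycle, mul_assoc, ← map_mul, inv_mul_cancel, map_one, mul_one]

theorem cocycle_eq_zero_of_map {σ : GQ} (h : (r σ).map d.D = 0) : d.cocycle r R σ = 0 := by
  rw [cocycle, h, zero_mul]

theorem cocycle_eq_zero_of_eq_one {σ : GQ} (h : r σ = 1) : d.cocycle r R σ = 0 := by
  refine d.cocycle_eq_zero_of_map r R ?_
  ext i j
  rw [h, Matrix.map_apply, Matrix.zero_apply]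
  rcases eq_or_ne i j with rfl | hij
  · rw [Matrix.one_apply_eq]; exact d.D_one
  · rw [Matrix.one_apply_ne hij, map_zero]

variable {r R} (hR : ∀ σ, (r σ).map π = R σ)
include hR

theorem map_mul (σ τ : GQ) :
    d.cocycle r R (σ * τ) = d.cocycle r R σ + R σ * d.cocycle r R τ * R σ⁻¹ := by
  simp only [cocycle, _root_.map_mul, mul_inv_rev, d.matrix_mul, hR, add_mul]
  rw [add_comm]
  congr 1
  · calc (r σ).map d.D * R τ * (R τ⁻¹ * R σ⁻¹)
        = (r σ).map d.D * (R τ * R τ⁻¹) * R σ⁻¹ := by simp only [mul_assoc]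
      _ = (r σ).map d.D * R σ⁻¹ := by
          rw [← _root_.map_mul, mul_inv_cancel, _root_.map_one, mul_one]
  · simp only [mul_assoc]

theorem trace_cocycle {σ : GQ} (h : d.D (r σ).det = 0) : (d.cocycle r R σ).trace = 0 := by
  rw [d.map_det, hR] at h
  have hdet : IsUnit (R σ).det := by
    refine IsUnit.of_mul_eq_one (R σ⁻¹).det ?_
    rw [← Matrix.det_mul, ← _root_.map_mul, mul_inv_cancel, _root_.map_one, Matrix.det_one]
  have hadj : (R σ).adjugate = (R σ).det • R σ⁻¹ := by
    calc (R σ).adjugate = (R σ).adjugate * R σ * R σ⁻¹ := by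
          rw [mul_assoc, ← _root_.map_mul, mul_inv_cancel, _root_.map_one, mul_one]
      _ = (R σ).det • R σ⁻¹ := by rw [Matrix.adjugate_mul, Matrix.smul_mul, one_mul]
  rw [hadj, Matrix.mul_smul, Matrix.trace_smul, smul_eq_mul] at h
  exact hdet.mul_right_eq_zero.mp h

omit hR in
theorem D_trace (σ : GQ) : d.D (r σ).trace = (d.cocycle r R σ * R σ).trace := by
  rw [cocycle_mul_apply, Matrix.trace_fin_two, Matrix.trace_fin_two, _root_.map_add]
  rfl

/-- A scalar matrix has vanishing cocycle as soon as the derivative of the determinant vanishes. -/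
theorem cocycle_eq_zero_of_scalar (h2 : (2 : k) ≠ 0) {σ : GQ} (h01 : d.D (r σ 0 1) = 0)
    (h10 : d.D (r σ 1 0) = 0) (h00 : d.D (r σ 0 0) = d.D (r σ 1 1))
    (g01 : R σ 0 1 = 0) (g10 : R σ 1 0 = 0) (g00 : R σ 0 0 = R σ 1 1)
    (h : d.D (r σ).det = 0) : d.cocycle r R σ = 0 := by
  have hdet : (R σ).det ≠ 0 := by
    refine (IsUnit.of_mul_eq_one (R σ⁻¹).det ?_).ne_zero
    rw [← Matrix.det_mul, ← _root_.map_mul, mul_inv_cancel, _root_.map_one, Matrix.det_one]
  rw [Matrix.det_fin_two, g01, zero_mul, sub_zero] at hdet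
  have e : ∀ i j, π (r σ i j) = R σ i j := fun i j => congrFun (congrFun (hR σ) i) j
  simp only [Matrix.det_fin_two, _root_.map_sub, d.leib, h01, h10, e, g01, g10, h00, g00,
    mul_zero, add_zero, sub_zero] at h
  rw [show R σ 1 1 * d.D (r σ 1 1) + d.D (r σ 1 1) * R σ 1 1 = 2 * (R σ 1 1 * d.D (r σ 1 1)) by
    ring] at h
  have h11 : d.D (r σ 1 1) = 0 :=
    ((mul_eq_zero.mp ((mul_eq_zero.mp h).resolve_left h2)).resolve_left
      fun hz => hdet (by rw [hz, mul_zero]))
  refine d.cocycle_eq_zero_of_map r R ?_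
  ext i j
  fin_cases i <;> fin_cases j <;> simp [Matrix.map_apply, h01, h10, h00, h11]

/-- The cocycle of a derivation which is not zero on the kernel of `π` has a flat lift as soon as
the representation is flat. -/
theorem hasFlatLift {p : ℕ} [IsLocalRing T] {ρ : GaloisRepAdic T} (hρ : HasMatrix ρ r)
    (hflat : ρ.IsFlatAt p) [Finite k]
    (hO : ∀ x : k, ∃ a, π a = x ∧ d.D a = 0) {t : T} (ht : π t = 0) (ht1 : d.D t = 1) :
    FlatBound.HasFlatLift p R (d.cocycle r R) := by
  classical
  obtain ⟨bas, hbas⟩ := hρ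
  let I : Ideal T :=
    { carrier := {a | π a = 0 ∧ d.D a = 0}
      zero_mem' := ⟨_root_.map_zero π, _root_.map_zero d.D⟩
      add_mem' := fun {a b} ha hb => ⟨by rw [_root_.map_add, ha.1, hb.1, add_zero],
        by rw [_root_.map_add, ha.2, hb.2, add_zero]⟩
      smul_mem' := fun a b hb => ⟨by rw [smul_eq_mul, _root_.map_mul, hb.1, mul_zero],
        by rw [smul_eq_mul, d.leib, hb.1, hb.2, mul_zero, mul_zero, add_zero]⟩ }
  let θ : T →+ k × k := π.toAddMonoidHom.prod d.D
  have hθ : Function.Surjective θ := fun ⟨x, y⟩ => by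
    obtain ⟨a, ha, ha0⟩ := hO x
    obtain ⟨c, hc, hc0⟩ := hO y
    refine ⟨a + c * t, Prod.ext ?_ ?_⟩
    · show π (a + c * t) = x
      rw [_root_.map_add, _root_.map_mul, ha, ht, mul_zero, add_zero]
    · show d.D (a + c * t) = y
      rw [_root_.map_add, d.leib, ha0, hc, ht1, ht, hc0, mul_one, mul_zero, add_zero, zero_add]
  haveI : Finite (T ⧸ I) := by
    refine Finite.of_injective (fun x : T ⧸ I => θ x.out) fun x y hxy => ?_
    rw [← Ideal.Quotient.mk_out x, ← Ideal.Quotient.mk_out y, Ideal.Quotient.eq]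
    refine ⟨?_, ?_⟩
    · rw [_root_.map_sub, sub_eq_zero]; exact congrArg Prod.fst hxy
    · rw [_root_.map_sub, sub_eq_zero]; exact congrArg Prod.snd hxy
  obtain ⟨-, hfl⟩ := hflat
  set M := ρ.V ⧸ (I • (⊤ : Submodule T ρ.V)) with hMdef
  obtain ⟨H, _, _, hfin, hflH, hcoc, eH, headd, hesmul⟩ := hfl I ‹_›
  letI act : DistribMulAction GQ M :=
    { smul := fun σ x => ρ.levelAction I σ x
      one_smul := fun x => by
        obtain ⟨v, rfl⟩ := Submodule.Quotient.mk_surjective _ x
        show ρ.levelAction I 1 (Submodule.Quotient.mk v) = _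
        rw [GaloisRepAdic.levelAction, Submodule.mapQ_apply, _root_.map_one]
        rfl
      mul_smul := fun σ τ x => by
        obtain ⟨v, rfl⟩ := Submodule.Quotient.mk_surjective _ x
        show ρ.levelAction I (σ * τ) (Submodule.Quotient.mk v) =
          ρ.levelAction I σ (ρ.levelAction I τ (Submodule.Quotient.mk v))
        simp only [GaloisRepAdic.levelAction, Submodule.mapQ_apply, _root_.map_mul,
          Module.End.mul_apply]
      smul_zero := fun σ => _root_.map_zero (ρ.levelAction I σ)
      smul_add := fun σ x y => _root_.map_add (ρ.levelAction I σ) x y }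
  let F : ρ.V →+ (Fin 2 → k) × (Fin 2 → k) :=
    { toFun := fun v => (fun i => π (bas.repr v i), fun i => d.D (bas.repr v i))
      map_zero' := Prod.ext (funext fun i => by simp) (funext fun i => by simp)
      map_add' := fun v w => Prod.ext (funext fun i => by simp) (funext fun i => by simp) }
  have hker : (I • (⊤ : Submodule T ρ.V)).toAddSubgroup ≤ F.ker := by
    intro v hv
    rw [AddMonoidHom.mem_ker]
    refine Submodule.smul_induction_on (Submodule.mem_toAddSubgroup _ |>.mp hv) (fun a ha w _ => ?_)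
      fun x y hx hy => by rw [_root_.map_add, hx, hy, add_zero]
    refine Prod.ext (funext fun i => ?_) (funext fun i => ?_)
    · show π (bas.repr (a • w) i) = 0
      rw [map_smul, Finsupp.smul_apply, smul_eq_mul, _root_.map_mul, ha.1, zero_mul]
    · show d.D (bas.repr (a • w) i) = 0
      rw [map_smul, Finsupp.smul_apply, smul_eq_mul, d.leib, ha.1, ha.2, zero_mul, zero_mul,
        add_zero]
  let e₀ : M →+ (Fin 2 → k) × (Fin 2 → k) := QuotientAddGroup.lift _ F hker
  have hbij : Function.Bijective e₀ := by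
    constructor
    · rw [injective_iff_map_eq_zero]
      intro x hx
      obtain ⟨v, rfl⟩ := Submodule.Quotient.mk_surjective _ x
      change F v = 0 at hx
      refine (Submodule.Quotient.mk_eq_zero _).mpr ?_
      rw [← bas.sum_repr v]
      refine Submodule.sum_mem _ fun i _ => Submodule.smul_mem_smul ?_ Submodule.mem_top
      exact ⟨congrFun (congrArg Prod.fst hx) i, congrFun (congrArg Prod.snd hx) i⟩
    · rintro ⟨x, y⟩
      choose a ha using fun i => hθ (x i, y i)
      refine ⟨Submodule.Quotient.mk (∑ i, a i • bas i), ?_⟩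
      show F (∑ i, a i • bas i) = (x, y)
      have hrep : ∀ i, bas.repr (∑ j, a j • bas j) i = a i := fun i => by
        rw [bas.repr_sum_self]
      refine Prod.ext (funext fun i => ?_) (funext fun i => ?_)
      · show π (bas.repr (∑ j, a j • bas j) i) = x i
        rw [hrep]; exact congrArg Prod.fst (ha i)
      · show d.D (bas.repr (∑ j, a j • bas j) i) = y i
        rw [hrep]; exact congrArg Prod.snd (ha i)
  refine ⟨M, inferInstance, act, AddEquiv.ofBijective e₀ hbij, fun σ x => ?_,
    ⟨H, _, _, hfin, hflH, hcoc, eH, headd, hesmul⟩⟩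
  obtain ⟨v, rfl⟩ := Submodule.Quotient.mk_surjective _ x
  show e₀ (ρ.levelAction I σ (Submodule.Quotient.mk v)) = _
  rw [GaloisRepAdic.levelAction, Submodule.mapQ_apply, d.cocycle_mul_apply r R]
  show F (ρ.ρ σ v) = ((R σ).mulVec (F v).1, (R σ).mulVec (F v).2 + ((r σ).map d.D).mulVec (F v).1)
  have hv : ∀ i, bas.repr (ρ.ρ σ v) i = ((r σ).mulVec (bas.repr v)) i := fun i => by
    rw [← hbas σ, LinearMap.toMatrix_mulVec_repr]
  have e : ∀ i j, π (r σ i j) = R σ i j := fun i j => congrFun (congrFun (hR σ) i) j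
  refine Prod.ext (funext fun i => ?_) (funext fun i => ?_)
  · show π (bas.repr (ρ.ρ σ v) i) = _
    rw [hv]
    simp only [Matrix.mulVec, dotProduct, map_sum, _root_.map_mul, e]
    rfl
  · show d.D (bas.repr (ρ.ρ σ v) i) = _
    rw [hv]
    simp only [Matrix.mulVec, dotProduct, map_sum, d.leib, e, Finset.sum_add_distrib, Pi.add_apply]
    rfl

end Tan

end Fermat.Agent.LL
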