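/-
Level lowering by patching: on a finite normal level the decomposition group is generated by inertia
and a Frobenius.
-/
import Fermat.Agent.EC.Unramified
import Fermat.Agent.FlatBound.Ram.Field

set_option autoImplicit false
set_option linter.style.haveILetI false

noncomputable section

open IsLocalRing
open scoped NumberField
open Fermat.Agent.Galois (GQ zbarToPlace placeCenter)

namespace Fermat.Agent.LL

local notation "ℚb" => AlgebraicClosure ℚ

/-- The residues of the integers of a subfield. -/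
def levelResidue (A : ValuationSubring (AlgebraicClosure ℚ))
    (F : IntermediateField ℚ (AlgebraicClosure ℚ)) : 𝓞 F →+* ResidueField A :=
  (residue A).comp ((zbarToPlace A).comp (EC.ringOfIntegersToZBar F))

theorem smul_levelResidue {A : ValuationSubring (AlgebraicClosure ℚ)}
    (F : IntermediateField ℚ (AlgebraicClosure ℚ)) [Normal ℚ F] (d : A.decompositionSubgroup ℚ)
    (a : 𝓞 F) :
    d • levelResidue A F a = levelResidue A F (AlgEquiv.restrictNormalHom F (d : GQ) • a) := by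
  rw [levelResidue, RingHom.comp_apply, RingHom.comp_apply, ← ResidueField.residue_smul]
  refine congrArg (residue A) (Subtype.ext ?_)
  show (d : GQ) ((a : F) : ℚb) =
    (((AlgEquiv.restrictNormalHom F (d : GQ)) (a : F) : F) : ℚb)
  exact (AlgEquiv.restrictNormal_commutes (d : GQ) F (a : F)).symm

/-- On a finite normal level every element of the decomposition group is a power of Frobenius times
an element of inertia. -/
theorem exists_frob_pow_mul_inertia {l : ℕ} (hl : l.Prime)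
    {A : ValuationSubring (AlgebraicClosure ℚ)} (hA : A.LiesOverPrime l) {φ : GQ}
    (hφ : A.IsFrobeniusAt φ l) {σ : GQ} (hσ : σ ∈ A.decompositionSubgroup ℚ)
    (F : IntermediateField ℚ (AlgebraicClosure ℚ)) [FiniteDimensional ℚ F] [Normal ℚ F] :
    ∃ N : ℕ, ∃ s ∈ A.inertiaSubgroupIn ℚ, ∀ x ∈ F, σ x = (φ ^ N * s) x := by
  classical
  haveI : IsGalois ℚ F := ⟨⟩
  haveI : NumberField F := { }
  haveI : Fact l.Prime := ⟨hl⟩
  set g := levelResidue A F with hg
  let P : Ideal (𝓞 F) := RingHom.ker g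
  have hlP : (l : 𝓞 F) ∈ P := by
    rw [RingHom.mem_ker, map_natCast, ← map_natCast (residue A), residue_eq_zero_iff,
      A.valuation_lt_one_iff]
    exact (ValuationSubring.mem_nonunits_iff A).1 hA
  have hPne : P ≠ ⊥ := fun h => by
    rw [h, Ideal.mem_bot] at hlP
    exact hl.ne_zero (Nat.cast_eq_zero.mp hlP)
  haveI : P.IsPrime := RingHom.ker_isPrime g
  haveI : P.IsMaximal := ‹P.IsPrime›.isMaximal hPne
  haveI : Finite (𝓞 F ⧸ P) := Ideal.finiteQuotientOfFreeOfNeBot P hPne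
  letI : Field (𝓞 F ⧸ P) := Ideal.Quotient.field P
  haveI : CharP (𝓞 F ⧸ P) l := (CharP.charP_iff_prime_eq_zero hl).2 (by
    rw [← map_natCast (Ideal.Quotient.mk P), Ideal.Quotient.eq_zero_iff_mem]; exact hlP)
  letI : Algebra (ZMod l) (𝓞 F ⧸ P) := ZMod.algebra _ _
  set r : GQ →* (F ≃ₐ[ℚ] F) := AlgEquiv.restrictNormalHom F
  let d : A.decompositionSubgroup ℚ := ⟨σ, hσ⟩
  have hσP : ∀ a ∈ P, r σ • a ∈ P := fun a ha => by
    rw [RingHom.mem_ker] at ha ⊢
    rw [hg, ← smul_levelResidue F d, ← hg, ha, smul_zero]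
  let T₀ : (𝓞 F ⧸ P) →ₐ[ZMod l] (𝓞 F ⧸ P) :=
    { Ideal.quotientMap P (MulSemiringAction.toRingHom (F ≃ₐ[ℚ] F) (𝓞 F) (r σ)) hσP with
      commutes' := fun x => by
        obtain ⟨k, rfl⟩ := ZMod.intCast_surjective x
        simp }
  let T := AlgEquiv.ofBijective T₀ (Finite.injective_iff_bijective.1 (RingHom.injective T₀.toRingHom))
  obtain ⟨n, hn⟩ := (FiniteField.bijective_frobeniusAlgEquivOfAlgebraic_pow
    (ZMod l) (𝓞 F ⧸ P)).2 T
  have h1 : ∀ a, g (r σ • a) = g a ^ l ^ (n : ℕ) := fun a => by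
    have h := DFunLike.congr_fun hn (Ideal.Quotient.mk P a)
    simp only [AlgEquiv.coe_pow, FiniteField.coe_frobeniusAlgEquivOfAlgebraic_iterate,
      ZMod.card] at h
    have h' : Ideal.Quotient.mk P (r σ • a) = Ideal.Quotient.mk P (a ^ l ^ (n : ℕ)) := by
      rw [map_pow]; exact h.symm
    rw [Ideal.Quotient.eq, RingHom.mem_ker, map_sub, map_pow, sub_eq_zero] at h'
    exact h'
  obtain ⟨hN, hres⟩ := FlatBound.residue_smul_pow hφ (n : ℕ)
  let e : A.decompositionSubgroup ℚ := ⟨φ ^ (n : ℕ), hN⟩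
  set τ := r ((φ ^ (n : ℕ))⁻¹ * σ) with hτ
  have h2 : ∀ a, g (τ • a) = g a := fun a => by
    rw [hτ, show r ((φ ^ (n : ℕ))⁻¹ * σ) = r (((e⁻¹ * d : A.decompositionSubgroup ℚ)) : GQ) from rfl,
      hg, ← smul_levelResidue, mul_smul, inv_smul_eq_iff, hres, smul_levelResidue, ← hg]
    exact h1 a
  obtain ⟨s, hs, hsτ⟩ := EC.exists_lift_inertia F hl hA τ fun a => by
    rw [← map_sub, ← Galois.residue_zbar_eq_zero_iff A]
    show g (τ • a - a) = 0
    rw [map_sub, h2, sub_self]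
  refine ⟨n, s, hs, fun x hx => ?_⟩
  have h3 : r s = r ((φ ^ (n : ℕ))⁻¹ * σ) := hsτ
  have h4 : s x = ((φ ^ (n : ℕ))⁻¹ * σ) x := by
    have := congrArg (fun u : F ≃ₐ[ℚ] F => ((u ⟨x, hx⟩ : F) : ℚb)) h3
    exact ((AlgEquiv.restrictNormal_commutes s F ⟨x, hx⟩).symm.trans this).trans
      (AlgEquiv.restrictNormal_commutes ((φ ^ (n : ℕ))⁻¹ * σ) F ⟨x, hx⟩)
  rw [AlgEquiv.mul_apply (φ ^ (n : ℕ)) s, h4, ← AlgEquiv.mul_apply, mul_inv_cancel_left]

end Fermat.Agent.LL
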