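/-
Level lowering by patching: the coordinates of the traceless part of a two by two matrix.
-/
import Mathlib

set_option autoImplicit false

noncomputable section

namespace Fermat.Agent.LL

variable {O T : Type} [CommRing O] [CommRing T] [Algebra O T]

/-- The three coordinates `((M₁₁ - M₂₂) / 2, M₁₂, M₂₁)`. -/
def coord (h : O) (M : Matrix (Fin 2) (Fin 2) T) : Fin 3 → T :=
  ![algebraMap O T h * (M 0 0 - M 1 1), M 0 1, M 1 0]

end Fermat.Agent.LL
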