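/-
Level lowering by patching: the relations satisfied by tame inertia and Frobenius at the twisted
primes, and the diamond parameters in the maximal ideal of the Hecke ring.
-/
import Fermat.Agent.LL.Gen.Residual
import Fermat.Agent.LL.Gen.Coords
import Fermat.Agent.Galois.Tame
import Fermat.Agent.GalRep.InertiaBase.Exports
import Fermat.Agent.GalRep.InertiaBase.Aut
import Fermat.Agent.DS.FrobConj

set_option autoImplicit false

noncomputable section

open IsLocalRing
open Fermat.Agent.Galois (GQ)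
open Fermat.Agent.GalRep.Level (cycM)

namespace Fermat.Agent.LL

variable {p : ℕ} [Fact p.Prime] {O : Type} [CommRing O] [IsDomain O] [IsDiscreteValuationRing O]
  [IsAdicComplete (maximalIdeal O) O] [Finite (ResidueField O)]
  [Algebra ℤ_[p] O] [Module.Finite ℤ_[p] O] [CharZero O]
  {ρbar : ResidualGaloisRep (ResidueField O)} {N : ℕ} [NeZero N] {S sig Q : Finset ℕ} {q n : ℕ}
  {a : ℕ → O}

/-- Inertia at `l` takes every value of the cyclotomic exponent modulo `l`. -/
theorem exists_inertia_cycM {l : ℕ} [NeZero l] (hl : l.Prime)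
    {A : ValuationSubring (AlgebraicClosure ℚ)} (hA : A.LiesOverPrime l) (u : (ZMod l)ˣ) :
    ∃ τ ∈ A.inertiaSubgroupIn ℚ, cycM l τ = u := by
  obtain ⟨L, hfd, hn, -, hζ⟩ := GalRep.InertiaBase.exists_field l (S := ∅) Set.finite_empty
  obtain ⟨g, hg, hgμ⟩ := NewVec.exists_fix_mu (m := 1) hl hA (M := l) (mul_one _).symm
    hl.not_dvd_one u
  obtain ⟨s, hs, hsg⟩ := GalRep.InertiaBase.exists_inertia_eq A L hg
  refine ⟨s, hs, GalRep.Level.cycM_eq_of_root s (NewVec.isPrimitiveRoot_zetaQ l) ?_⟩
  rw [hsg _ (GalRep.InertiaBase.mem_rFld_of_mem A L hζ)]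
  simpa using hgμ

/-- The coordinates satisfy the quadric given trace and determinant. -/
theorem coord_quadric {T : Type} [CommRing T] [Algebra O T] {h : O} (hh : 2 * h = 1)
    (M : Matrix (Fin 2) (Fin 2) T) :
    coord h M 0 * coord h M 0 + coord h M 1 * coord h M 2 =
      algebraMap O T (h * h) * M.trace ^ 2 - M.det := by
  have h4 : algebraMap O T h * algebraMap O T h * 4 = 1 := by
    rw [← map_ofNat (algebraMap O T), ← map_mul, ← map_mul, ← map_one (algebraMap O T)]
    congr 1
    linear_combination (2 * h + 1) * hh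
  simp only [coord, Matrix.cons_val_zero, Matrix.cons_val_one, Matrix.cons_val, Matrix.trace_fin_two,
    Matrix.det_fin_two, map_mul]
  linear_combination (-(M 0 0 * M 1 1)) * h4

/-- The coordinates of commuting matrices are proportional. -/
theorem coord_minors {T : Type} [CommRing T] [Algebra O T] (h : O)
    {U F : Matrix (Fin 2) (Fin 2) T} (hc : U * F = F * U) :
    coord h U 0 * coord h F 1 = coord h U 1 * coord h F 0 ∧
      coord h U 0 * coord h F 2 = coord h U 2 * coord h F 0 ∧
      coord h U 1 * coord h F 2 = coord h U 2 * coord h F 1 := by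
  have e := fun i j => congrFun (congrFun hc i) j
  simp only [Matrix.mul_apply, Fin.sum_univ_two] at e
  have e00 := e 0 0
  have e01 := e 0 1
  have e10 := e 1 0
  simp only [coord, Matrix.cons_val_zero, Matrix.cons_val_one, Matrix.cons_val]
  refine ⟨?_, ?_, ?_⟩
  · linear_combination (algebraMap O T h) * e01
  · linear_combination -(algebraMap O T h) * e10
  · linear_combination e00

/-- The coordinates are natural. -/
theorem coord_map {T T' : Type} [CommRing T] [CommRing T'] [Algebra O T] [Algebra O T'] (h : O)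
    (f : T →ₐ[O] T') (M : Matrix (Fin 2) (Fin 2) T) (i : Fin 3) :
    coord h (M.map f) i = f (coord h M i) := by
  fin_cases i <;> simp [coord, map_mul, map_sub]

/-- A matrix congruent to one with a power prime to `p` congruent to one to a higher order. -/
theorem sub_one_mem_of_pow {T : Type} [CommRing T] [IsLocalRing T] {m : ℕ} (hm : IsUnit (m : T))
    {W : Matrix (Fin 2) (Fin 2) T} {n : ℕ} (h1 : ∀ i j, (W - 1) i j ∈ maximalIdeal T)
    (hn : ∀ i j, (W ^ m - 1) i j ∈ maximalIdeal T ^ n) :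
    ∀ i j, (W - 1) i j ∈ maximalIdeal T ^ n := by
  suffices h : ∀ k, k ≤ n → ∀ i j, (W - 1) i j ∈ maximalIdeal T ^ k from h n le_rfl
  intro k hk
  induction k with
  | zero => intro i j; rw [pow_zero, Ideal.one_eq_top]; trivial
  | succ k ih =>
    rcases Nat.eq_zero_or_pos k with rfl | hk0
    · simpa using h1
    have ih := ih (by omega)
    let π := Ideal.Quotient.mk (maximalIdeal T ^ (k + 1))
    let D := π.mapMatrix (W - 1)
    have hDD : D * D = 0 := by
      rw [show D * D = π.mapMatrix ((W - 1) * (W - 1)) from (map_mul π.mapMatrix _ _).symm]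
      ext i j
      rw [RingHom.mapMatrix_apply, Matrix.map_apply, Matrix.zero_apply]
      refine Ideal.Quotient.eq_zero_iff_mem.mpr ?_
      rw [Matrix.mul_apply]
      refine Ideal.sum_mem _ fun x _ =>
        Ideal.pow_le_pow_right (I := maximalIdeal T) (by omega : k + 1 ≤ k + k) ?_
      rw [pow_add]
      exact Ideal.mul_mem_mul (ih i x) (ih x j)
    have hpow : ∀ N : ℕ, (1 + D) ^ N = 1 + (N : T ⧸ maximalIdeal T ^ (k + 1)) • D := by
      intro N
      induction N with
      | zero => simp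
      | succ N ihN =>
        rw [pow_succ (1 + D) N, ihN, Nat.cast_succ, add_smul, one_smul, mul_add, mul_one, add_mul, one_mul,
          smul_mul_assoc, hDD, smul_zero, add_zero, add_assoc]
    have hD1 : 1 + D = π.mapMatrix W := by
      simp only [D, map_sub, map_one, add_sub_cancel]
    have hm1 : (m : T ⧸ maximalIdeal T ^ (k + 1)) • D = 0 := by
      have h2 : π.mapMatrix (W ^ m - 1) = 0 := by
        ext i j
        rw [RingHom.mapMatrix_apply, Matrix.map_apply, Matrix.zero_apply,
          Ideal.Quotient.eq_zero_iff_mem]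
        exact Ideal.pow_le_pow_right hk (hn i j)
      rw [map_sub, map_pow, map_one, ← hD1, hpow, add_sub_cancel_left] at h2
      exact h2
    intro i j
    have := congrFun (congrFun hm1 i) j
    rw [Matrix.smul_apply, Matrix.zero_apply, smul_eq_mul] at this
    have hu : IsUnit (m : T ⧸ maximalIdeal T ^ (k + 1)) := by
      rw [← map_natCast π]; exact hm.map π
    exact Ideal.Quotient.eq_zero_iff_mem.mp (hu.mul_right_eq_zero.mp this)

/-- `X² - (ζ + ζ⁻¹) X + 1` divides `X ^ p - 1`. -/
theorem dvd_X_pow_sub_one {ζ ζi : O} (hζ : IsPrimitiveRoot ζ p) (hζi : ζ * ζi = 1) (hp2 : 2 < p) :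
    (Polynomial.X ^ 2 - Polynomial.C (ζ + ζi) * Polynomial.X + 1 : Polynomial O) ∣
      Polynomial.X ^ p - 1 := by
  classical
  have hne : ζ ≠ ζi := fun h => by
    have h2 : ζ ^ 2 = 1 := by rw [pow_two]; nth_rewrite 2 [h]; exact hζi
    have := Nat.le_of_dvd two_pos ((hζ.pow_eq_one_iff_dvd 2).mp h2)
    omega
  have hpos : 0 < p := by omega
  have hζip : ζi ^ p = 1 := by
    have := congrArg (fun x => x ^ p) hζi
    rwa [mul_pow, hζ.pow_eq_one, one_mul, one_pow] at this
  rw [Polynomial.X_pow_sub_one_eq_prod hpos hζ]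
  have h2 : (Polynomial.X ^ 2 - Polynomial.C (ζ + ζi) * Polynomial.X + 1 : Polynomial O) =
      ∏ μ ∈ ({ζ, ζi} : Finset O), (Polynomial.X - Polynomial.C μ) := by
    rw [Finset.prod_pair hne]
    have : Polynomial.C ζ * Polynomial.C ζi = (1 : Polynomial O) := by
      rw [← map_mul, hζi, map_one]
    rw [map_add]
    linear_combination -this
  rw [h2]
  refine Finset.prod_dvd_prod_of_subset _ _ _ fun x hx => ?_
  rw [Finset.mem_insert, Finset.mem_singleton] at hx
  rw [Polynomial.mem_nthRootsFinset hpos]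
  rcases hx with rfl | rfl
  exacts [hζ.pow_eq_one, hζip]

/-- Tame inertia with prescribed value of a character. -/
theorem exists_inertia_char {l : ℕ} [NeZero l] (hl : l.Prime)
    {A : ValuationSubring (AlgebraicClosure ℚ)} (hA : A.LiesOverPrime l)
    (χ : (ZMod l)ˣ →* Oˣ) (hχ : ∀ u, χ u ^ p = 1) (hne : χ ≠ 1) {ζ : O}
    (hζ : IsPrimitiveRoot ζ p) :
    ∃ τ ∈ A.inertiaSubgroupIn ℚ, (χ (cycM l τ) : O) = ζ := by
  obtain ⟨u₀, hu₀⟩ : ∃ u, χ u ≠ 1 := by
    by_contra h
    push Not at h
    exact hne (MonoidHom.ext h)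
  have hp : p.Prime := Fact.out
  have hprim : IsPrimitiveRoot ((χ u₀ : O)) p := by
    refine IsPrimitiveRoot.iff_orderOf.mpr (orderOf_eq_prime ?_ ?_)
    · rw [← Units.val_pow_eq_pow_val, hχ, Units.val_one]
    · exact fun h => hu₀ (Units.ext h)
  haveI : NeZero p := ⟨hp.ne_zero⟩
  obtain ⟨i, -, hi⟩ := hprim.eq_pow_of_pow_eq_one hζ.pow_eq_one
  obtain ⟨τ, hτ, hu⟩ := exists_inertia_cycM hl hA (u₀ ^ i)
  exact ⟨τ, hτ, by rw [hu, map_pow, Units.val_pow_eq_pow_val, hi]⟩

/-- The local facts at a twisted prime, for tame inertia `τ` with character value `ζ` and a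
Frobenius `φ`. -/
structure LocalFacts (X : Auto.LevelOut p O ρbar N S sig Q q n) (δ h : O) (l : ℕ)
    (U F : Matrix (Fin 2) (Fin 2) X.T) : Prop where
  coord_mem : ∀ i, coord h U i ∈ maximalIdeal X.T ∧ coord h F i ∈ maximalIdeal X.T
  quadric : X.act (coord h U 0) * X.act (coord h U 0) + X.act (coord h U 1) * X.act (coord h U 2) =
    algebraMap O (Module.End O X.V) δ * algebraMap O (Module.End O X.V) δ
  minor₁ : X.act (coord h U 0) * X.act (coord h F 1) =
    X.act (coord h U 1) * X.act (coord h F 0)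
  minor₂ : X.act (coord h U 0) * X.act (coord h F 2) =
    X.act (coord h U 2) * X.act (coord h F 0)
  minor₃ : X.act (coord h U 1) * X.act (coord h F 2) =
    X.act (coord h U 2) * X.act (coord h F 1)
  quad : l = q → ∀ v : X.V,
    (X.act (coord h F 0) * X.act (coord h F 0) + X.act (coord h F 1) * X.act (coord h F 2)) v ∈
      maximalIdeal O • (⊤ : Submodule O X.V)

set_option maxHeartbeats 1000000 in
theorem localFacts (H : Setting p O ρbar N S sig q a) (X : Auto.LevelOut p O ρbar N S sig Q q n)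
    (b : Module.Basis (Fin 2) X.T X.ρ.V) {ζ δ h : O} (hζ : IsPrimitiveRoot ζ p) (hh : 2 * h = 1)
    (hδ : 2 * δ * ζ = ζ * ζ - 1) (l : sig) [NeZero (l : ℕ)]
    {A : ValuationSubring (AlgebraicClosure ℚ)} (hA : A.LiesOverPrime (l : ℕ)) {τ φ : GQ}
    (hτ : τ ∈ A.inertiaSubgroupIn ℚ) (hτζ : (X.xi l (cycM (l : ℕ) τ) : O) = ζ)
    (hφ : A.IsFrobeniusAt φ (l : ℕ)) :
    LocalFacts X δ h (l : ℕ) (LinearMap.toMatrixAlgEquiv b (X.ρ.ρ τ))
      (LinearMap.toMatrixAlgEquiv b (X.ρ.ρ φ)) := by
  classical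
  obtain ⟨hlp, hlN, hl1, hin⟩ := H.level.sig_spec l l.2
  have hp : p.Prime := Fact.out
  have h5 := H.level.five_le
  have hlne : (l : ℕ) ≠ p := fun h => H.p_sig (h ▸ l.2)
  obtain ⟨ζi, hζi⟩ := (hζ.isUnit hp.ne_zero).exists_right_inv
  set M := levelMat X b with hM
  change LocalFacts X δ h (l : ℕ) (M τ) (M φ)
  obtain ⟨hpm, -⟩ : (p : O) ∈ maximalIdeal O ∧ True := by
    refine ⟨?_, trivial⟩
    rw [mem_maximalIdeal, mem_nonunits_iff]
    intro hu
    have hmax : (maximalIdeal O).comap (algebraMap ℤ_[p] O) = maximalIdeal ℤ_[p] :=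
      IsLocalRing.eq_maximalIdeal (Ideal.isMaximal_comap_of_isIntegral_of_isMaximal _)
    have hmem : (p : ℤ_[p]) ∈ maximalIdeal ℤ_[p] := PadicInt.p_nonunit
    rw [← hmax, Ideal.mem_comap, map_natCast] at hmem
    exact hmem hu
  have hlu : IsUnit ((l : ℕ) : X.T) := by
    rw [← map_natCast (algebraMap O X.T)]
    refine IsUnit.map _ ?_
    by_contra hn
    have hcop : Nat.Coprime p (l : ℕ) := (Nat.coprime_primes hp hlp).mpr (Ne.symm hlne)
    obtain ⟨u, v, huv⟩ := (Nat.isCoprime_iff_coprime.mpr hcop)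
    have := congrArg (Int.cast : ℤ → O) huv
    push_cast at this
    exact (maximalIdeal.isMaximal O).ne_top ((Ideal.eq_top_iff_one _).mpr
      (this ▸ add_mem (Ideal.mul_mem_left _ _ hpm) (Ideal.mul_mem_left _ _ hn)))
  -- congruences
  have hres : ∀ σ ∈ A.decompositionSubgroup ℚ, ∀ i, coord h (M σ) i ∈ maximalIdeal X.T := by
    intro σ hσ i
    obtain ⟨c, hc⟩ := H.scalar l l.2 A hA σ hσ
    have e := fun i j => congrFun (congrFun (map_residue_of_scalar X b hc) i) j
    rw [← residue_eq_zero_iff]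
    fin_cases i
    · have e0 := e 0 0
      have e1 := e 1 1
      simp only [Matrix.map_apply, Matrix.smul_apply, Matrix.one_apply_eq] at e0 e1
      simp [coord, hM, e0, e1]
    · have e0 := e 0 1
      simp only [Matrix.map_apply, Matrix.smul_apply] at e0
      simpa [coord, hM] using e0
    · have e0 := e 1 0
      simp only [Matrix.map_apply, Matrix.smul_apply] at e0
      simpa [coord, hM] using e0
  have hτdec : τ ∈ A.decompositionSubgroup ℚ := by
    obtain ⟨τ', -, rfl⟩ := hτ; exact τ'.2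
  -- the quotient by the kernel of the action
  let K : Ideal X.T := RingHom.ker X.act.toRingHom
  let π : X.T →ₐ[O] X.T ⧸ K := Ideal.Quotient.mkₐ O K
  have hπ : ∀ x y : X.T, π x = π y ↔ X.act x = X.act y := fun x y => by
    rw [Ideal.Quotient.mkₐ_eq_mk, Ideal.Quotient.eq, RingHom.mem_ker]
    change X.act (x - y) = 0 ↔ _
    rw [map_sub, sub_eq_zero]
  have htrτ : π (M τ).trace = algebraMap O _ (ζ + ζi) := by
    rw [← AlgHom.commutes π, hπ, AlgHom.commutes, trace_levelMat,
      X.inertia_sig l A hA τ hτ, hτζ]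
    congr 2
    refine (hζ.isUnit hp.ne_zero).mul_left_cancel ?_
    rw [hζi, ← hτζ, ← Units.val_mul, mul_inv_cancel, Units.val_one]
  have hdetτ : (M τ).det = 1 := by
    rw [det_levelMat, GalRep.cyc_inertia p hlp hlne hA hτ, Units.val_one, map_one, map_one]
  -- the power of tame inertia
  set U := (M τ).map π with hU
  have hUp : U ^ p = 1 := by
    rcases subsingleton_or_nontrivial (X.T ⧸ K) with _ | _
    · exact Subsingleton.elim _ _
    have hchar : U.charpoly = (Polynomial.X ^ 2 - Polynomial.C (ζ + ζi) * Polynomial.X + 1 :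
        Polynomial O).map (algebraMap O (X.T ⧸ K)) := by
      rw [Matrix.charpoly_fin_two, hU]
      have e1 : ((M τ).map π).trace = π (M τ).trace := by simp [Matrix.trace_fin_two]
      have e2 : ((M τ).map π).det = π (M τ).det := (AlgHom.map_det π (M τ)).symm
      rw [e1, e2, htrτ, hdetτ, map_one π, map_one Polynomial.C, Polynomial.map_add,
        Polynomial.map_sub, Polynomial.map_mul, Polynomial.map_pow, Polynomial.map_X,
        Polynomial.map_C, Polynomial.map_one]
    obtain ⟨R, hR⟩ := (Polynomial.map_dvd (algebraMap O (X.T ⧸ K))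
      (dvd_X_pow_sub_one (p := p) hζ hζi (by omega)))
    rw [← hchar, Polynomial.map_sub, Polynomial.map_pow, Polynomial.map_X, Polynomial.map_one] at hR
    have := congrArg (Polynomial.aeval U) hR
    rw [map_mul, Matrix.aeval_self_charpoly, zero_mul, map_sub, map_pow, Polynomial.aeval_X,
      map_one, sub_eq_zero] at this
    exact this
  -- the tame relation
  have hrel : M (φ * τ * φ⁻¹ * (τ ^ (l : ℕ))⁻¹) = 1 := by
    set w := φ * τ * φ⁻¹ * (τ ^ (l : ℕ))⁻¹ with hw
    have hN : ∀ σ : GQ, σ ∈ A.inertiaSubgroupIn ℚ → ∀ i j, (M σ - 1) i j ∈ maximalIdeal X.T := by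
      intro σ hσ i j
      have := congrFun (congrFun (map_residue_of_scalar X b (c := 1)
        (by rw [one_smul]; exact hin A hA σ hσ)) i) j
      rw [map_one, one_smul, Matrix.map_apply] at this
      rw [← residue_eq_zero_iff, Matrix.sub_apply, map_sub, sub_eq_zero, this]
      simp [Matrix.one_apply, apply_ite (residue X.T)]
    have hwI : w ∈ A.inertiaSubgroupIn ℚ := by
      obtain ⟨τ', hτ', hττ⟩ := hτ
      obtain ⟨hdec, -⟩ := hφ
      have hn : (A.inertiaSubgroup ℚ).Normal := MonoidHom.normal_ker _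
      let φ' : A.decompositionSubgroup ℚ := ⟨φ, hdec⟩
      have hmem : φ' * τ' * φ'⁻¹ * (τ' ^ (l : ℕ))⁻¹ ∈ A.inertiaSubgroup ℚ :=
        mul_mem (hn.conj_mem _ hτ' φ') (inv_mem (pow_mem hτ' _))
      have hmap := Subgroup.mem_map_of_mem (A.decompositionSubgroup ℚ).subtype hmem
      rw [map_mul, map_mul, map_mul, map_inv, map_inv, map_pow, hττ] at hmap
      exact hmap
    suffices h1 : ∀ i j, (M w - 1) i j = 0 from
      sub_eq_zero.mp (Matrix.ext fun i j => h1 i j)
    intro i j
    refine IsHausdorff.haus (I := maximalIdeal X.T) (M := X.T) inferInstance _ fun k => ?_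
    rw [SModEq.zero, smul_eq_mul, Ideal.mul_top]
    obtain ⟨L, hL, hLc⟩ := Deform.HasMatrix.matCts (ρ := X.ρ) (r := M) ⟨b, fun σ => rfl⟩ k
    let F := IntermediateField.normalClosure ℚ L (AlgebraicClosure ℚ)
    haveI : Normal ℚ (AlgebraicClosure ℚ) := IsGalois.to_normal
    haveI : Normal ℚ F := normalClosure.normal ℚ _ _
    haveI : IsGalois ℚ F := ⟨⟩
    obtain ⟨jj, hj⟩ := Galois.tame_relation hlp hA hφ hτ F
    have hpw : ∀ i j, (M w ^ (l : ℕ) ^ jj - 1) i j ∈ maximalIdeal X.T ^ k := by
      rw [← map_pow]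
      exact hLc _ fun x hx => hj x (IntermediateField.le_normalClosure _ hx)
    exact sub_one_mem_of_pow (m := (l : ℕ) ^ jj) (by rw [Nat.cast_pow]; exact hlu.pow jj)
      (hN w hwI) hpw i j
  have hcomm : U * (M φ).map π = (M φ).map π * U := by
    have h1 : M φ * M τ = M τ ^ (l : ℕ) * M φ := by
      rw [← map_pow, ← map_mul, ← map_mul]
      calc M (φ * τ) = M (φ * τ * φ⁻¹ * (τ ^ (l : ℕ))⁻¹ * (τ ^ (l : ℕ) * φ)) := by group
        _ = M (τ ^ (l : ℕ) * φ) := by rw [map_mul, hrel, one_mul]
    have h2 := congrArg (fun Z : Matrix (Fin 2) (Fin 2) X.T => π.mapMatrix Z) h1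
    simp only [map_mul, map_pow] at h2
    change (M φ).map π * U = U ^ (l : ℕ) * (M φ).map π at h2
    have hl' : (l : ℕ) = p * ((l : ℕ) / p) + 1 := by
      have h0 := Nat.div_add_mod (l : ℕ) p
      have h1' : (l : ℕ) % p = 1 := by
        rw [hl1, Nat.mod_eq_of_lt hp.one_lt]
      omega
    rw [hl', pow_succ, pow_mul, hUp, one_pow, one_mul] at h2
    exact h2.symm
  obtain ⟨m1, m2, m3⟩ := coord_minors h hcomm
  simp only [hU, coord_map, ← map_mul, hπ] at m1 m2 m3
  rw [map_mul, map_mul] at m1 m2 m3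
  refine ⟨fun i => ⟨hres τ hτdec i, hres φ hφ.mem_decompositionSubgroup i⟩, ?_, m1, m2, m3, ?_⟩
  · have e : π (coord h (M τ) 0 * coord h (M τ) 0 + coord h (M τ) 1 * coord h (M τ) 2) =
        algebraMap O _ (δ * δ) := by
      rw [coord_quadric hh, hdetτ, map_sub, map_mul, map_pow, htrτ, AlgHom.commutes, map_one,
        ← map_pow, ← map_mul, ← map_one (algebraMap O (X.T ⧸ K)), ← map_sub]
      congr 1
      have hd2 : 2 * δ = ζ - ζi := by
        have := congrArg (fun x => x * ζi) hδ
        linear_combination this - (2 * δ - ζ) * hζi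
      linear_combination (-(h * h * (2 * δ + ζ - ζi))) * hd2 + (4 * h * h) * hζi +
        (2 * h + 1) * (1 + δ * δ) * hh
    rw [← AlgHom.commutes π, hπ, AlgHom.commutes, map_add, map_mul, map_mul, map_mul] at e
    exact e
  · intro hlq v
    have hdetφ : (M φ).det = ((l : ℕ) : X.T) := by
      rw [det_levelMat, GalRep.cyc_frobenius p hlp hlne hA hφ, map_natCast, map_natCast]
    have hq' := coord_quadric hh (M φ)
    rw [hdetφ, trace_levelMat] at hq'
    have e : coord h (M φ) 0 * coord h (M φ) 0 + coord h (M φ) 1 * coord h (M φ) 2 =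
        algebraMap O X.T (h * h) * (X.ρ.trace φ ^ 2 - (((q + 1) ^ 2 : ℕ) : X.T)) +
          algebraMap O X.T (h * h * (((q + 1) ^ 2 : ℕ) : O) - (q : O)) := by
      rw [hq', hlq]
      simp only [map_sub, map_mul, map_natCast]
      ring
    rw [← map_mul, ← map_mul, ← map_add, e, map_add, map_mul, AlgHom.commutes, AlgHom.commutes,
      LinearMap.add_apply, Module.End.mul_apply, Module.algebraMap_end_apply,
      Module.algebraMap_end_apply]
    refine add_mem (Submodule.smul_mem _ _ (X.qnew A (hlq ▸ hA) φ (hlq ▸ hφ) v)) ?_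
    refine Submodule.smul_mem_smul ?_ Submodule.mem_top
    have hq1 : (q : O) - 1 ∈ maximalIdeal O := by
      have hmod : p ∣ q - 1 := (Nat.modEq_iff_dvd' (hlq ▸ hlp).one_le).mp (hlq ▸ hl1).symm
      obtain ⟨d, hd⟩ := hmod
      have : ((q - 1 : ℕ) : O) = (p : O) * d := by rw [hd, Nat.cast_mul]
      rw [Nat.cast_sub (hlq ▸ hlp).one_le, Nat.cast_one] at this
      rw [this]
      exact Ideal.mul_mem_right _ _ hpm
    have e2 : h * h * (((q + 1) ^ 2 : ℕ) : O) - (q : O) = h * h * (((q : O) - 1) * ((q : O) - 1)) := by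
      push_cast
      linear_combination ((q : O) * (2 * h + 1)) * hh
    rw [e2]
    exact Ideal.mul_mem_left _ _ (Ideal.mul_mem_left _ _ hq1)

/-- The square of a diamond parameter is in the image of an element of the maximal ideal. -/
theorem exists_param (H : Setting p O ρbar N S sig q a)
    (X : Auto.LevelOut p O ρbar N S sig Q q n) (hQ : ∀ v ∈ Q, v.Prime ∧ v ∉ S) (v : Q) :
    ∃ t ∈ maximalIdeal X.T, ∀ w : X.V,
      let g := X.dia (Pi.mulSingle v (Multiplicative.ofAdd 1))
      (g - 1) ((g - 1) w) = X.act t (g w) := by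
  classical
  obtain ⟨hvp, hvS⟩ := hQ v v.2
  haveI : NeZero (v : ℕ) := ⟨hvp.ne_zero⟩
  set G := X.dia (Pi.mulSingle v (Multiplicative.ofAdd 1)) with hG
  obtain ⟨u, hu⟩ := X.delta_surjective v (Multiplicative.ofAdd 1)
  have hd : X.delta v u = Pi.mulSingle v (Multiplicative.ofAdd 1) := by
    funext w
    rcases eq_or_ne w v with rfl | hw
    · rw [Pi.mulSingle_eq_same]; exact hu
    · rw [Pi.mulSingle_eq_of_ne hw, X.delta_off v w u hw]
  obtain ⟨A, hA⟩ := Galois.exists_liesOverPrime hvp
  obtain ⟨σ, hσ, hσu⟩ := exists_inertia_cycM hvp hA u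
  let bT := Module.finBasisOfFinrankEq X.T X.ρ.V X.ρ.finrank_eq
  refine ⟨X.ρ.trace σ - 2, ?_, fun w => ?_⟩
  · rw [← residue_eq_zero_iff, map_sub, map_ofNat, sub_eq_zero, ← trace_levelMat X bT,
      Matrix.trace_fin_two, map_add]
    have e := fun i => congrFun (congrFun (map_residue_of_scalar X bT (c := 1)
      (by rw [one_smul]; exact H.unramified v hvp hvS A hA σ hσ)) i) i
    simp only [Matrix.map_apply, map_one, one_smul, Matrix.one_apply_eq] at e
    rw [e 0, e 1, one_add_one_eq_two]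
  · intro g
    have ht : X.act (X.ρ.trace σ - 2) =
        G + X.dia (Pi.mulSingle v (Multiplicative.ofAdd 1))⁻¹ - 2 := by
      rw [map_sub, map_ofNat, X.inertia_tw v A hA σ hσ, hσu, hd]
    have hinv : X.dia (Pi.mulSingle v (Multiplicative.ofAdd 1))⁻¹ (G w) = w := by
      rw [hG, ← Module.End.mul_apply, ← map_mul, inv_mul_cancel, map_one, Module.End.one_apply]
    rw [ht, show g = G from rfl]
    simp only [LinearMap.sub_apply, LinearMap.add_apply, Module.End.one_apply, map_sub, hinv,
      Module.End.ofNat_apply]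
    module

end Fermat.Agent.LL
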