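/-
Level lowering by patching: modulo an ideal containing the square of the maximal ideal, the
uniformiser and the coordinates of tame inertia and Frobenius at a twisted prime, the decomposition
group at that prime is central.
-/
import Fermat.Agent.LL.Gen.Local
import Fermat.Agent.LL.Gen.Decomp
import Fermat.Agent.Mazur3.Descent.Tame

set_option autoImplicit false
set_option linter.style.haveILetI false

noncomputable section

open IsLocalRing
open scoped Pointwise
open Fermat.Agent.Galois (GQ)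
open Fermat.Agent.GalRep.Level (cycM)
open Fermat.Agent.Deform (Mat2)

namespace Fermat.Agent.LL

/-- The elements whose matrix is central modulo an ideal. -/
def centralMod {T : Type} [CommRing T] (M : GQ →* Mat2 T) (J : Ideal T) : Subgroup GQ where
  carrier := {σ | ∀ Z : Mat2 (T ⧸ J),
    Commute ((Ideal.Quotient.mk J).mapMatrix (M σ)) Z}
  one_mem' Z := by rw [map_one, map_one]; exact Commute.one_left Z
  mul_mem' {σ τ} hσ hτ Z := by rw [map_mul, map_mul]; exact (hσ Z).mul_left (hτ Z)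
  inv_mem' {σ} hσ Z := by
    let f := ((Ideal.Quotient.mk J).mapMatrix.toMonoidHom.comp M)
    have h1 : f σ * f σ⁻¹ = 1 := by rw [← map_mul, mul_inv_cancel, map_one]
    have h2 : f σ⁻¹ * f σ = 1 := by rw [← map_mul, inv_mul_cancel, map_one]
    show f σ⁻¹ * Z = Z * f σ⁻¹
    calc f σ⁻¹ * Z = f σ⁻¹ * (Z * (f σ * f σ⁻¹)) := by rw [h1, mul_one]
      _ = f σ⁻¹ * (f σ * Z * f σ⁻¹) := by
        rw [← mul_assoc Z, show Z * f σ = f σ * Z from (hσ Z).eq.symm]
      _ = f σ⁻¹ * f σ * (Z * f σ⁻¹) := by simp only [mul_assoc]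
      _ = Z * f σ⁻¹ := by rw [h2, one_mul]

variable {T : Type} [CommRing T] {M : GQ →* Mat2 T} {J : Ideal T}

theorem conj_mem_centralMod {σ : GQ} (hσ : σ ∈ centralMod M J) (g : GQ) :
    g * σ * g⁻¹ ∈ centralMod M J := by
  intro Z
  let f := ((Ideal.Quotient.mk J).mapMatrix.toMonoidHom.comp M)
  have h : f (g * σ * g⁻¹) = f σ := by
    rw [map_mul, map_mul, ← (show Commute (f σ) (f g) from hσ _).eq, mul_assoc, ← map_mul,
      mul_inv_cancel, map_one, mul_one]
  show Commute (f (g * σ * g⁻¹)) Z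
  rw [h]
  exact hσ Z

theorem mem_centralMod_of_entries {σ : GQ} (h01 : M σ 0 1 ∈ J) (h10 : M σ 1 0 ∈ J)
    (h00 : M σ 0 0 - M σ 1 1 ∈ J) : σ ∈ centralMod M J := by
  intro Z
  have e : (Ideal.Quotient.mk J).mapMatrix (M σ) = Ideal.Quotient.mk J (M σ 1 1) • (1 : Mat2 _) := by
    ext i j
    fin_cases i <;> fin_cases j
    · simpa [RingHom.mapMatrix_apply] using Ideal.Quotient.eq.mpr h00
    · simpa [RingHom.mapMatrix_apply] using Ideal.Quotient.eq_zero_iff_mem.mpr h01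
    · simpa [RingHom.mapMatrix_apply] using Ideal.Quotient.eq_zero_iff_mem.mpr h10
    · simp [RingHom.mapMatrix_apply]
  rw [e]
  exact (Commute.one_left Z).smul_left _

theorem entries_of_mem_centralMod {σ : GQ} (h : σ ∈ centralMod M J) :
    M σ 0 1 ∈ J ∧ M σ 1 0 ∈ J ∧ M σ 0 0 - M σ 1 1 ∈ J := by
  have a := congrFun (congrFun (h !![1, 0; 0, 0]).eq 0) 1
  have b := congrFun (congrFun (h !![1, 0; 0, 0]).eq 1) 0
  have c := congrFun (congrFun (h !![0, 1; 0, 0]).eq 0) 1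
  simp [Matrix.mul_apply, Fin.sum_univ_two] at a b c
  refine ⟨Ideal.Quotient.eq_zero_iff_mem.mp (by first | exact a | exact a.symm),
    Ideal.Quotient.eq_zero_iff_mem.mp b,
    Ideal.Quotient.eq.mp c⟩

theorem mem_centralMod_of_conj {M' : GQ →* Mat2 T} (U : (Mat2 T)ˣ)
    (hU : ∀ σ, M' σ * U = U * M σ) {σ : GQ} (h : σ ∈ centralMod M J) : σ ∈ centralMod M' J := by
  intro Z
  have e : (Ideal.Quotient.mk J).mapMatrix (M' σ) = (Ideal.Quotient.mk J).mapMatrix (M σ) := by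
    refine (U.isUnit.map (Ideal.Quotient.mk J).mapMatrix).mul_right_cancel ?_
    rw [← map_mul, hU, map_mul]
    exact (h _).eq.symm
  rw [e]
  exact h Z

section

variable {p : ℕ} [Fact p.Prime] {O : Type} [CommRing O] [IsDomain O] [IsDiscreteValuationRing O]
  [IsAdicComplete (maximalIdeal O) O] [Finite (ResidueField O)]
  [Algebra ℤ_[p] O] [Module.Finite ℤ_[p] O] [CharZero O]
  {ρbar : ResidualGaloisRep (ResidueField O)} {N : ℕ} [NeZero N] {S sig Q : Finset ℕ} {q n : ℕ}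
  {a : ℕ → O}

set_option maxHeartbeats 1000000 in
theorem decomposition_le_centralMod (H : Setting p O ρbar N S sig q a)
    (X : Auto.LevelOut p O ρbar N S sig Q q n) (b : Module.Basis (Fin 2) X.T X.ρ.V) {ζ h : O}
    (hζ : IsPrimitiveRoot ζ p) (hh : 2 * h = 1) (l : sig) [NeZero (l : ℕ)]
    {A : ValuationSubring (AlgebraicClosure ℚ)} (hA : A.LiesOverPrime (l : ℕ)) {τ φ : GQ}
    (hτ : τ ∈ A.inertiaSubgroupIn ℚ) (hτζ : (X.xi l (cycM (l : ℕ) τ) : O) = ζ)
    (hφ : A.IsFrobeniusAt φ (l : ℕ)) {J : Ideal X.T} (hJ : maximalIdeal X.T ^ 2 ≤ J)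
    (hpJ : (p : X.T) ∈ J) (hU : ∀ i, coord h (levelMat X b τ) i ∈ J)
    (hF : ∀ i, coord h (levelMat X b φ) i ∈ J) {A' : ValuationSubring (AlgebraicClosure ℚ)}
    (hA' : A'.LiesOverPrime (l : ℕ)) {σ : GQ} (hσ : σ ∈ A'.decompositionSubgroup ℚ) :
    σ ∈ centralMod (levelMat X b) J := by
  classical
  set M := levelMat X b with hM
  set G := centralMod M J with hG
  obtain ⟨hlp, -, hl1, hin⟩ := H.level.sig_spec l l.2
  have hp : p.Prime := Fact.out
  have hlne : (l : ℕ) ≠ p := fun e => H.p_sig (e ▸ l.2)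
  have hpm : (p : O) ∈ maximalIdeal O := by
    rw [mem_maximalIdeal, mem_nonunits_iff]
    intro hu
    have hmax : (maximalIdeal O).comap (algebraMap ℤ_[p] O) = maximalIdeal ℤ_[p] :=
      IsLocalRing.eq_maximalIdeal (Ideal.isMaximal_comap_of_isIntegral_of_isMaximal _)
    have hmem : (p : ℤ_[p]) ∈ maximalIdeal ℤ_[p] := PadicInt.p_nonunit
    rw [← hmax, Ideal.mem_comap, map_natCast] at hmem
    exact hmem hu
  have hlu : IsUnit ((l : ℕ) : X.T) := by
    rw [← map_natCast (algebraMap O X.T)]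
    refine IsUnit.map _ ?_
    by_contra hn
    have hcop : Nat.Coprime p (l : ℕ) := (Nat.coprime_primes hp hlp).mpr (Ne.symm hlne)
    obtain ⟨u, v, huv⟩ := (Nat.isCoprime_iff_coprime.mpr hcop)
    have := congrArg (Int.cast : ℤ → O) huv
    push_cast at this
    exact (maximalIdeal.isMaximal O).ne_top ((Ideal.eq_top_iff_one _).mpr
      (this ▸ add_mem (Ideal.mul_mem_left _ _ hpm) (Ideal.mul_mem_left _ _ hn)))
  have hhu : IsUnit (algebraMap O X.T h) :=
    (IsUnit.of_mul_eq_one 2 (by rw [mul_comm]; exact hh)).map _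
  have hcoord : ∀ g : GQ, (∀ i, coord h (M g) i ∈ J) → g ∈ G := fun g hg => by
    have h0 := hg 0
    simp only [coord, Matrix.cons_val_zero] at h0
    exact mem_centralMod_of_entries (by simpa [coord] using hg 1) (by simpa [coord] using hg 2)
      ((Ideal.unit_mul_mem_iff_mem _ hhu).mp h0)
  have hτG : τ ∈ G := hcoord τ hU
  have hφG : φ ∈ G := hcoord φ hF
  have hsq : ∀ g : GQ, (∀ i j, (M g - 1) i j ∈ maximalIdeal X.T ^ 2) → g ∈ G := fun g hg => by
    have e : ∀ i j, M g i j = (M g - 1) i j + (1 : Mat2 X.T) i j := fun i j => by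
      rw [Matrix.sub_apply, sub_add_cancel]
    refine mem_centralMod_of_entries ?_ ?_ ?_
    · rw [e]; simpa using hJ (hg 0 1)
    · rw [e]; simpa using hJ (hg 1 0)
    · rw [e, e 1 1, Matrix.one_apply_eq, Matrix.one_apply_eq, add_sub_add_right_eq_sub]
      exact hJ (sub_mem (hg 0 0) (hg 1 1))
  have hN : ∀ g : GQ, g ∈ A.inertiaSubgroupIn ℚ → ∀ i j, (M g - 1) i j ∈ maximalIdeal X.T := by
    intro g hg i j
    have := congrFun (congrFun (map_residue_of_scalar X b (c := 1)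
      (by rw [one_smul]; exact hin A hA g hg)) i) j
    rw [map_one, one_smul, Matrix.map_apply] at this
    rw [← residue_eq_zero_iff, Matrix.sub_apply, map_sub, sub_eq_zero, hM, this]
    simp [Matrix.one_apply, apply_ite (residue X.T)]
  -- a level
  obtain ⟨L₀, hL₀, hLc⟩ := Deform.HasMatrix.matCts (ρ := X.ρ) (r := M) ⟨b, fun _ => rfl⟩ 2
  obtain ⟨L₁, hL₁, -, -, hζL⟩ :=
    GalRep.InertiaBase.exists_field (l : ℕ) (S := ∅) Set.finite_empty
  let L := IntermediateField.normalClosure ℚ ↥(L₀ ⊔ L₁) (AlgebraicClosure ℚ)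
  haveI : Normal ℚ (AlgebraicClosure ℚ) := IsGalois.to_normal
  haveI : FiniteDimensional ℚ ↥(L₀ ⊔ L₁) := IntermediateField.finiteDimensional_sup L₀ L₁
  haveI : FiniteDimensional ℚ L := normalClosure.is_finiteDimensional ℚ _ _
  haveI : Normal ℚ L := normalClosure.normal ℚ _ _
  haveI : IsGalois ℚ L := ⟨⟩
  have hle : L₀ ⊔ L₁ ≤ L := IntermediateField.le_normalClosure _
  have hker : ∀ g : GQ, (∀ x ∈ L, g x = x) → ∀ i j, (M g - 1) i j ∈ maximalIdeal X.T ^ 2 :=
    fun g hg => hLc g fun x hx => hg x (hle (le_sup_left (b := L₁) hx))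
  -- inertia
  haveI : Fact (Nat.Prime p) := ⟨hp⟩
  obtain ⟨s, hs, r, hr, hrp, hs1⟩ := Mazur3.exists_tame_moving (η := p) hlp hlne hA
  obtain ⟨g, hg, hgen⟩ := Mazur3.exists_inertia_gen (η := p) hlp hA hs hr hrp hs1 L
  have hwild : ∀ w ∈ A.inertiaSubgroupIn ℚ, (∃ j : ℕ, ∀ x ∈ L, (w ^ (l : ℕ) ^ j) x = x) →
      w ∈ G ∧ X.xi l (cycM (l : ℕ) w) = 1 := by
    rintro w hw ⟨j, hj⟩
    refine ⟨hsq w (sub_one_mem_of_pow (m := (l : ℕ) ^ j) (by rw [Nat.cast_pow]; exact hlu.pow j)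
      (hN w hw) (by rw [← map_pow]; exact hker _ hj)), ?_⟩
    have hc : cycM (l : ℕ) (w ^ (l : ℕ) ^ j) = 1 :=
      GalRep.Level.cycM_eq_of_root _ (NewVec.isPrimitiveRoot_zetaQ (l : ℕ)) (by
        rw [hj _ (hle (le_sup_right (a := L₀) hζL))]
        have : ((1 : (ZMod (l : ℕ))ˣ) : ZMod (l : ℕ)).val = 1 := by
          rw [Units.val_one, ZMod.val_one_eq_one_mod, Nat.mod_eq_of_lt hlp.one_lt]
        rw [this, pow_one])
    have h1 : X.xi l (cycM (l : ℕ) w) ^ ((l : ℕ) ^ j) = 1 := by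
      rw [← map_pow, ← map_pow, hc, map_one]
    have hcop : Nat.Coprime p ((l : ℕ) ^ j) :=
      Nat.Coprime.pow_right _ ((Nat.coprime_primes hp hlp).mpr (Ne.symm hlne))
    exact orderOf_eq_one_iff.mp (Nat.eq_one_of_dvd_coprimes hcop
      (orderOf_dvd_of_pow_eq_one (X.xi_pow l _)) (orderOf_dvd_of_pow_eq_one h1))
  have hsplit : ∀ t ∈ A.inertiaSubgroupIn ℚ, ∃ k : ℕ, ∃ w ∈ G,
      X.xi l (cycM (l : ℕ) w) = 1 ∧ t = w * g ^ k := fun t ht => by
    obtain ⟨k, j, hkj, -⟩ := hgen t ht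
    obtain ⟨h1, h2⟩ := hwild _ (mul_mem ht (inv_mem (pow_mem hg k))) ⟨j, hkj⟩
    exact ⟨k, _, h1, h2, (inv_mul_cancel_right t (g ^ k)).symm⟩
  obtain ⟨k, w, hw, hwξ, hkw⟩ := hsplit τ hτ
  have hpk : ¬ p ∣ k := by
    rintro ⟨m, rfl⟩
    have e : X.xi l (cycM (l : ℕ) τ) = 1 := by
      rw [hkw, map_mul, map_mul, hwξ, one_mul, map_pow, map_pow, pow_mul, X.xi_pow, one_pow]
    rw [e, Units.val_one] at hτζ
    exact hp.ne_one (hζ.unique (hτζ ▸ IsPrimitiveRoot.one))
  have hgk : g ^ k ∈ G := by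
    have := mul_mem (inv_mem hw) hτG
    rwa [hkw, inv_mul_cancel_left] at this
  have hgp : g ^ p ∈ G := by
    let π := Ideal.Quotient.mk J
    let D := π.mapMatrix (M g - 1)
    have hDD : D * D = 0 := by
      rw [show D * D = π.mapMatrix ((M g - 1) * (M g - 1)) from (map_mul π.mapMatrix _ _).symm]
      ext i j
      rw [RingHom.mapMatrix_apply, Matrix.map_apply, Matrix.zero_apply, Matrix.mul_apply]
      refine Ideal.Quotient.eq_zero_iff_mem.mpr (hJ (Ideal.sum_mem _ fun x _ => ?_))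
      rw [pow_two]
      exact Ideal.mul_mem_mul (hN g hg i x) (hN g hg x j)
    have hpow : ∀ m : ℕ, (1 + D) ^ m = 1 + (m : X.T ⧸ J) • D := by
      intro m
      induction m with
      | zero => simp
      | succ m ihm =>
        rw [pow_succ (1 + D) m, ihm, Nat.cast_succ, add_smul, one_smul, mul_add, mul_one, add_mul,
          one_mul, smul_mul_assoc, hDD, smul_zero, add_zero, add_assoc]
    intro Z
    have e : (Ideal.Quotient.mk J).mapMatrix (M (g ^ p)) = 1 := by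
      rw [map_pow, map_pow, show (Ideal.Quotient.mk J).mapMatrix (M g) = 1 + D by
        simp only [D, π, map_sub, map_one, add_sub_cancel], hpow, ← map_natCast π,
        Ideal.Quotient.eq_zero_iff_mem.mpr hpJ, zero_smul, add_zero]
    rw [e]
    exact Commute.one_left Z
  have hgG : g ∈ G := by
    obtain ⟨u, v, huv⟩ : ∃ u v : ℤ, u * (p : ℤ) + v * (k : ℤ) = 1 :=
      Nat.isCoprime_iff_coprime.mpr ((hp.coprime_iff_not_dvd).mpr hpk)
    have := mul_mem (zpow_mem hgp u) (zpow_mem hgk v)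
    rwa [← zpow_natCast g p, ← zpow_natCast g k, ← zpow_mul, ← zpow_mul, ← zpow_add, mul_comm (p : ℤ) u,
      mul_comm (k : ℤ) v, huv, zpow_one] at this
  have hI : ∀ t ∈ A.inertiaSubgroupIn ℚ, t ∈ G := fun t ht => by
    obtain ⟨k', w', hw', -, rfl⟩ := hsplit t ht
    exact mul_mem hw' (pow_mem hgG k')
  -- the decomposition group
  have hD : ∀ d ∈ A.decompositionSubgroup ℚ, d ∈ G := fun d hd => by
    obtain ⟨m, t, ht, hdt⟩ := exists_frob_pow_mul_inertia hlp hA hφ hd L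
    have hk : (φ ^ m * t)⁻¹ * d ∈ G := hsq _ (hker _ fun x hx => by
      rw [AlgEquiv.mul_apply ((φ ^ m * t)⁻¹) d, hdt x hx]
      exact (φ ^ m * t).symm_apply_apply x)
    have := mul_mem (mul_mem (pow_mem hφG m) (hI t ht)) hk
    rwa [mul_inv_cancel_left] at this
  obtain ⟨c, rfl⟩ := Galois.exists_smul_eq_of_liesOverPrime hlp hA hA'
  have hd : c⁻¹ * σ * c ∈ A.decompositionSubgroup ℚ := by
    have hs' : σ • c • A = c • A := hσ
    show (c⁻¹ * σ * c) • A = A
    rw [mul_smul, mul_smul, hs', inv_smul_smul]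
  have := conj_mem_centralMod (hD _ hd) c
  rwa [show c * (c⁻¹ * σ * c) * c⁻¹ = σ by group] at this

end

end Fermat.Agent.LL
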