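/-
Level lowering by patching: the group ring of the diamond operators as a quotient of
`O⟦y₁, …, y_r⟧` by an ideal in a high power of the maximal ideal.
-/
import Fermat.Agent.LL.Levels
import Fermat.Agent.Auto.Level.Char
import Fermat.Prelude.Thm_IsLocalRing_isAdicComplete_of_module_finite

set_option autoImplicit false

noncomputable section

open IsLocalRing MvPowerSeries

namespace Fermat.Agent.LL

variable {p : ℕ} [Fact p.Prime] {O : Type} [CommRing O] [IsDomain O] [IsDiscreteValuationRing O]
  [IsAdicComplete (maximalIdeal O) O] [Finite (ResidueField O)]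

/-- Iterated `p`-th powers of units congruent to one. -/
theorem pow_pow_sub_one_mem {A : Type} [CommRing A] (I : Ideal A) {p : ℕ} (hp : (p : A) ∈ I)
    {x : A} (hx : x ∈ I) (k : ℕ) : (1 + x) ^ p ^ k - 1 ∈ I ^ (k + 1) := by
  induction k with
  | zero => simpa using hx
  | succ k ih =>
    rw [pow_succ p k, pow_mul, pow_succ' I (k + 1), ← geom_sum_mul]
    refine Ideal.mul_mem_mul ?_ ih
    have h1 : (1 + x) ^ p ^ k - 1 ∈ I := Ideal.pow_le_self (by omega) ih
    rw [← Ideal.Quotient.eq_zero_iff_mem] at hp h1 ⊢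
    rw [map_sub, map_one, sub_eq_zero] at h1
    simp only [map_sum, map_pow] at h1 ⊢
    simp only [h1, one_pow, Finset.sum_const, Finset.card_range, nsmul_eq_mul, mul_one]
    rwa [map_natCast] at hp

section GroupAlgebra

variable {G : Type} [CommGroup G] [Finite G]

/-- The group algebra of a `p`-group is local. -/
theorem isLocalRing_monoidAlgebra (hp : (p : O) ∈ maximalIdeal O) (hG : IsPGroup p G) :
    IsLocalRing (MonoidAlgebra O G) := by
  haveI : Fintype G := Fintype.ofFinite G
  haveI : Module.Finite O (MonoidAlgebra O G) :=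
    Module.Finite.of_basis (MonoidAlgebra.basis G O)
  have key : ∀ P : Ideal (MonoidAlgebra O G), P.IsMaximal →
      (∀ a ∈ maximalIdeal O, algebraMap O _ a ∈ P) ∧ ∀ g, MonoidAlgebra.of O G g - 1 ∈ P := by
    intro P hP
    have hc : P.comap (algebraMap O (MonoidAlgebra O G)) = maximalIdeal O :=
      IsLocalRing.eq_maximalIdeal (Ideal.isMaximal_comap_of_isIntegral_of_isMaximal P)
    refine ⟨fun a ha => by rwa [← hc] at ha, fun g => ?_⟩
    obtain ⟨k, hk⟩ := hG g
    haveI := hP.isPrime
    haveI : IsDomain (MonoidAlgebra O G ⧸ P) := Ideal.Quotient.isDomain P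
    haveI : CharP (MonoidAlgebra O G ⧸ P) p := by
      refine (CharP.charP_iff_prime_eq_zero Fact.out).mpr ?_
      rw [← map_natCast (Ideal.Quotient.mk P), Ideal.Quotient.eq_zero_iff_mem,
        ← map_natCast (algebraMap O (MonoidAlgebra O G))]
      rwa [← hc] at hp
    haveI : ExpChar (MonoidAlgebra O G ⧸ P) p := .prime Fact.out
    refine Ideal.Quotient.eq_zero_iff_mem.mp (eq_zero_of_pow_eq_zero (n := p ^ k) ?_)
    rw [map_sub, map_one, sub_pow_char_pow, one_pow, ← map_pow, ← map_pow, hk, map_one, map_one,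
      sub_self]
  refine IsLocalRing.of_unique_max_ideal ?_
  obtain ⟨P, hP⟩ := Ideal.exists_maximal (MonoidAlgebra O G)
  refine ⟨P, hP, fun P' hP' => hP'.eq_of_le hP.ne_top fun f hf => ?_⟩
  let ε : MonoidAlgebra O G →ₐ[O] O := MonoidAlgebra.lift O O G 1
  have haug : ∀ P₀ : Ideal (MonoidAlgebra O G), P₀.IsMaximal →
      f - algebraMap O _ (ε f) ∈ P₀ := fun P₀ h₀ => by
    clear hf
    induction f using MonoidAlgebra.induction_on with
    | of g =>
      rw [show ε (MonoidAlgebra.of O G g) = 1 by simp [ε], map_one]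
      exact (key P₀ h₀).2 g
    | add x y hx hy =>
      rw [map_add, map_add, add_sub_add_comm]
      exact add_mem hx hy
    | smul c x hx =>
      rw [map_smul, Algebra.smul_def, Algebra.smul_def, map_mul, Algebra.algebraMap_self,
        RingHom.id_apply, ← mul_sub]
      exact Ideal.mul_mem_left _ _ hx
  have h1 := sub_mem hf (haug P' hP')
  rw [sub_sub_cancel] at h1
  have hε : ε f ∈ maximalIdeal O := by
    rw [← IsLocalRing.eq_maximalIdeal (Ideal.isMaximal_comap_of_isIntegral_of_isMaximal
      (R := O) P')]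
    exact h1
  have h3 := add_mem (haug P hP) ((key P hP).1 _ hε)
  rwa [sub_add_cancel] at h3

end GroupAlgebra

/-- A module free over the group ring is one over a deep quotient of the power series ring, with
`y_j` acting as `g_j - 1`; operators commuting with the group are linear over it. -/
theorem exists_level_ring (hp : (p : O) ∈ maximalIdeal O) {r n : ℕ} {Q : Finset ℕ}
    (e : Fin r ≃ Q) {V : Type} [AddCommGroup V] [Module O V]
    (dia : Auto.CharGrp p Q (fun _ => n + 1) →* Module.End O V) {s : ℕ}
    (hb : ∃ b : Fin s → V, ∀ v : V, ∃! f : Fin s → Auto.CharGrp p Q (fun _ => n + 1) → O,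
      v = ∑ i, ∑ x, f i x • dia x (b i)) :
    ∃ (R : Type) (_ : CommRing R) (φ : MvPowerSeries (Fin r) O →+* R)
      (_ : Function.Surjective φ)
      (_ : RingHom.ker φ ≤ maximalIdeal (MvPowerSeries (Fin r) O) ^ n)
      (_ : Module R V) (_ : Module.Basis (Fin s) R V),
      (∀ (a : O) (v : V), φ (C a) • v = a • v) ∧
      (∀ (j : Fin r) (v : V),
        φ (X j) • v = dia (Pi.mulSingle (e j) (Multiplicative.ofAdd 1)) v - v) ∧
      ∀ f : Module.End O V, (∀ x, Commute (dia x) f) → ∀ (a : R) (v : V), f (a • v) = a • f v := by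
  classical
  haveI : NeZero (p ^ (n + 1)) := ⟨pow_ne_zero _ (Fact.out : p.Prime).ne_zero⟩
  let G := Auto.CharGrp p Q (fun _ => n + 1)
  have hG : IsPGroup p G := fun g => ⟨n + 1, funext fun v => by
    rw [Pi.pow_apply, Pi.one_apply, ← ofAdd_toAdd (g v), ← ofAdd_nsmul, ← ofAdd_zero]
    congr 1
    rw [nsmul_eq_mul, ZMod.natCast_self, zero_mul]⟩
  let R := MonoidAlgebra O G
  haveI : Module.Finite O R := Module.Finite.of_basis (MonoidAlgebra.basis G O)
  haveI : IsLocalRing R := isLocalRing_monoidAlgebra hp hG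
  haveI : IsLocalHom (algebraMap O R) := ⟨fun a ha => by
    by_contra h
    have : a ∈ (maximalIdeal R).comap (algebraMap O R) := by
      rw [IsLocalRing.eq_maximalIdeal (Ideal.isMaximal_comap_of_isIntegral_of_isMaximal _)]
      exact h
    exact this ha⟩
  haveI : IsAdicComplete (maximalIdeal R) R :=
    IsLocalRing.isAdicComplete_of_module_finite (𝒪 := O) (T := R)
  let gen : Fin r → G := fun j => Pi.mulSingle (e j) (Multiplicative.ofAdd 1)
  have hgen : ∀ j, MonoidAlgebra.of O G (gen j) - 1 ∈ maximalIdeal R := fun j => by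
    obtain ⟨k, hk⟩ := hG (gen j)
    haveI : CharP (ResidueField R) p := by
      refine (CharP.charP_iff_prime_eq_zero Fact.out).mpr ?_
      rw [← map_natCast (residue R), ← map_natCast (algebraMap O R), residue_eq_zero_iff,
        mem_maximalIdeal]
      exact map_nonunit _ _ hp
    haveI : ExpChar (ResidueField R) p := .prime Fact.out
    rw [← residue_eq_zero_iff]
    refine eq_zero_of_pow_eq_zero (n := p ^ k) ?_
    rw [map_sub, map_one, sub_pow_char_pow, one_pow, ← map_pow, ← map_pow, hk, map_one, map_one,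
      sub_self]
  obtain ⟨φ, hφ⟩ := exists_eval (O := O) (fun j => MonoidAlgebra.of O G (gen j) - 1) hgen
  have hφC : ∀ a : O, φ (C a) = algebraMap O R a := fun a => φ.commutes a
  have hsurj : Function.Surjective φ.toRingHom := by
    intro f
    induction f using MonoidAlgebra.induction_on with
    | of g =>
      let H : Submonoid G := Submonoid.comap (MonoidAlgebra.of O G)
        (MonoidHom.mrange (φ : MvPowerSeries (Fin r) O →* R))
      suffices hg : g ∈ H by exact hg
      rw [← Finset.univ_prod_mulSingle g]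
      refine prod_mem fun v _ => ?_
      have hj : gen (e.symm v) ∈ H := ⟨1 + X (e.symm v), by simp [hφ]⟩
      have : Pi.mulSingle v (g v) = gen (e.symm v) ^ (Multiplicative.toAdd (g v)).val := by
        simp only [gen, Equiv.apply_symm_apply]
        rw [← Pi.mulSingle_pow]
        congr 1
        rw [← ofAdd_nsmul, nsmul_eq_mul, mul_one, ZMod.natCast_zmod_val, ofAdd_toAdd]
      rw [this]
      exact pow_mem hj _
    | add x y hx hy =>
      obtain ⟨a, rfl⟩ := hx
      obtain ⟨b, rfl⟩ := hy
      exact ⟨a + b, map_add _ _ _⟩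
    | smul c x hx =>
      obtain ⟨a, rfl⟩ := hx
      refine ⟨C c * a, ?_⟩
      change φ (C c * a) = c • φ a
      rw [map_mul, hφC, Algebra.smul_def]
  let m := maximalIdeal (MvPowerSeries (Fin r) O)
  let q := Ideal.Quotient.mk (m ^ n)
  have hXm : ∀ j, (X j : MvPowerSeries (Fin r) O) ∈ m := fun j => by
    rw [mem_maximalIdeal, mem_nonunits_iff, isUnit_iff_constantCoeff]; simp
  have hpm : ((p : ℕ) : MvPowerSeries (Fin r) O) ∈ m := by
    rw [← map_natCast (C : O →+* MvPowerSeries (Fin r) O), mem_maximalIdeal, mem_nonunits_iff,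
      isUnit_iff_constantCoeff, constantCoeff_C]
    exact hp
  have hone : ∀ j, q (1 + X j) ^ p ^ (n + 1) = 1 := fun j => by
    rw [← map_pow, ← map_one q, Ideal.Quotient.eq]
    exact Ideal.pow_le_pow_right (by omega) (pow_pow_sub_one_mem m hpm (hXm j) (n + 1))
  have hunit : ∀ j, ∃ u : (MvPowerSeries (Fin r) O ⧸ m ^ n)ˣ, (u : _ ⧸ m ^ n) = q (1 + X j) ∧
      u ^ p ^ (n + 1) = 1 := fun j => by
    obtain ⟨u, hu⟩ := (isUnit_iff_constantCoeff.mpr (by simp : IsUnit (constantCoeff
      (1 + X j : MvPowerSeries (Fin r) O)))).map q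
    exact ⟨u, hu, Units.ext (by rw [Units.val_pow_eq_pow_val, hu, hone, Units.val_one])⟩
  choose u hu hu1 using hunit
  have hchar : ∀ j, ∃ c : Multiplicative (ZMod (p ^ (n + 1))) →* (MvPowerSeries (Fin r) O ⧸ m ^ n)ˣ,
      c (Multiplicative.ofAdd 1) = u j := fun j => by
    have hgz : ∀ x : Multiplicative (ZMod (p ^ (n + 1))),
        x ∈ Subgroup.zpowers (Multiplicative.ofAdd (1 : ZMod (p ^ (n + 1)))) := fun x => by
      refine ⟨((Multiplicative.toAdd x).val : ℤ), ?_⟩
      change _ ^ (((Multiplicative.toAdd x).val : ℤ)) = x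
      rw [zpow_natCast, ← ofAdd_nsmul, nsmul_eq_mul, mul_one, ZMod.natCast_zmod_val, ofAdd_toAdd]
    refine ⟨monoidHomOfForallMemZpowers hgz (g' := u j) ?_, monoidHomOfForallMemZpowers_apply_gen _ _⟩
    rw [orderOf_ofAdd_eq_addOrderOf, ZMod.addOrderOf_one]
    exact orderOf_dvd_of_pow_eq_one (hu1 j)
  choose c hc using hchar
  let ψ : R →ₐ[O] MvPowerSeries (Fin r) O ⧸ m ^ n := MonoidAlgebra.lift O _ G
    ((Units.coeHom _).comp
      { toFun := fun g => ∏ j, c j (g (e j))
        map_one' := Finset.prod_eq_one fun j _ => by rw [Pi.one_apply, map_one]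
        map_mul' := fun g g' =>
          (Finset.prod_congr rfl fun j _ => by rw [Pi.mul_apply, map_mul]).trans Finset.prod_mul_distrib })
  have hψX : ∀ j, ψ (φ (X j)) = q (X j) := fun j => by
    rw [hφ, map_sub, map_one, MonoidAlgebra.lift_of]
    simp only [MonoidHom.comp_apply, MonoidHom.coe_mk, OneHom.coe_mk, Units.coeHom_apply, gen]
    rw [Finset.prod_eq_single j (fun i _ hi => by
        rw [Pi.mulSingle_eq_of_ne (fun h => hi (e.injective h)), map_one])
      (fun h => absurd (Finset.mem_univ j) h), Pi.mulSingle_eq_same, hc, hu, map_add, map_one,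
      add_sub_cancel_left]
  have hψC : ∀ a : O, ψ (φ (C a)) = q (C a) := fun a => by
    rw [hφC, AlgHom.commutes]; rfl
  have hψ : ∀ k f, ψ (φ f) - q f ∈ (m.map q) ^ k := by
    intro k
    induction k with
    | zero => intro f; rw [pow_zero, Ideal.one_eq_top]; trivial
    | succ k ih =>
      intro f
      have hf : f - C (constantCoeff f) ∈ Ideal.span (Set.range
          fun i : Fin r => (X i : MvPowerSeries (Fin r) O)) := by
        rw [← Patching.ofList_X, Patching.mem_ofList_X_iff]; simp
      rw [Ideal.mem_span_range_iff_exists_fun] at hf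
      obtain ⟨w, hw⟩ := hf
      have e1 : ψ (φ f) - q f = ∑ i, q (X i) * (ψ (φ (w i)) - q (w i)) := by
        have hf' : f = C (constantCoeff f) + ∑ i, w i * X i := by rw [hw]; ring
        conv_lhs => rw [hf']
        simp only [map_add, map_sum, map_mul, hψX, hψC, mul_sub, Finset.sum_sub_distrib]
        simp only [mul_comm (q (X _))]
        ring
      rw [e1, pow_succ']
      exact sum_mem fun i _ => Ideal.mul_mem_mul (Ideal.mem_map_of_mem q (hXm i)) (ih _)
  have hker : RingHom.ker φ.toRingHom ≤ m ^ n := fun f hf => by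
    have h0 := hψ n f
    rw [← Ideal.map_pow, Ideal.map_quotient_self, Ideal.mem_bot,
      show φ f = 0 from hf, map_zero, zero_sub, neg_eq_zero] at h0
    exact Ideal.Quotient.eq_zero_iff_mem.mp h0
  let L := MonoidAlgebra.lift O (Module.End O V) G dia
  letI : Module R V := Module.compHom V L.toRingHom
  have hsmul : ∀ (a : R) (v : V), a • v = L a v := fun a v => rfl
  obtain ⟨b, hb⟩ := hb
  let Φ : (Fin s → R) →ₗ[R] V := Fintype.linearCombination R b
  have hΦ : ∀ F : Fin s → R, Φ F = ∑ i, ∑ x, (F i).coeff x • dia x (b i) := fun F => by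
    rw [Fintype.linearCombination_apply]
    refine Finset.sum_congr rfl fun i _ => ?_
    rw [hsmul, MonoidAlgebra.lift_apply, Finsupp.sum_fintype _ _ (by simp), LinearMap.sum_apply]
    rfl
  have hbij : Function.Bijective Φ := by
    constructor
    · intro F F' hFF'
      obtain ⟨f, -, hf⟩ := hb (Φ F)
      have h1 := hf (fun i x => (F i).coeff x) (hΦ F)
      have h2 := hf (fun i x => (F' i).coeff x) (hFF'.trans (hΦ F'))
      funext i
      exact MonoidAlgebra.ext (Finsupp.ext fun x => congrFun (congrFun (h1.trans h2.symm) i) x)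
    · intro v
      obtain ⟨f, hf, -⟩ := hb v
      refine ⟨fun i => MonoidAlgebra.ofCoeff (Finsupp.equivFunOnFinite.symm (f i)), ?_⟩
      rw [hΦ, hf]
      simp
      rfl
  refine ⟨R, inferInstance, φ.toRingHom, hsurj, hker, inferInstance,
    (Module.Basis.ofEquivFun (LinearEquiv.ofBijective Φ hbij).symm), fun a v => ?_, fun j v => ?_,
    fun f hf a v => ?_⟩
  · change φ (C a) • v = _
    rw [hφC, hsmul, AlgHom.commutes, Module.algebraMap_end_apply]
  · change φ (X j) • v = _
    rw [hφ, hsmul, map_sub, map_one, MonoidAlgebra.lift_of, LinearMap.sub_apply, Module.End.one_apply]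
  · have hc : Commute (L a) f := by
      induction a using MonoidAlgebra.induction_on with
      | of g => rw [MonoidAlgebra.lift_of]; exact hf g
      | add x y hx hy => rw [map_add]; exact hx.add_left hy
      | smul c x hx => rw [map_smul]; exact hx.smul_left c
    rw [hsmul, hsmul, ← Module.End.mul_apply, ← hc.eq]
    rfl

/-- An endomorphism which is nilpotent modulo the maximal ideal maps, raised to the rank, into the
maximal ideal. -/
theorem range_pow_le_smul {R : Type} [CommRing R] [IsLocalRing R] {M : Type} [AddCommGroup M]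
    [Module R M] {s : ℕ} (b : Module.Basis (Fin s) R M) (f : Module.End R M) {N : ℕ}
    (hf : LinearMap.range (f ^ N) ≤ maximalIdeal R • (⊤ : Submodule R M)) :
    LinearMap.range (f ^ s) ≤ maximalIdeal R • (⊤ : Submodule R M) := by
  classical
  let T := (LinearMap.toMatrixAlgEquiv b : Module.End R M ≃ₐ[R] Matrix (Fin s) (Fin s) R)
  let A := (residue R).mapMatrix (T f)
  have hmem : ∀ k, LinearMap.range (f ^ k) ≤ maximalIdeal R • (⊤ : Submodule R M) ↔ A ^ k = 0 := by
    intro k
    have hA : A ^ k = (residue R).mapMatrix (T (f ^ k)) := by rw [map_pow, map_pow]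
    rw [hA]
    constructor
    · intro h
      ext i j
      rw [RingHom.mapMatrix_apply, Matrix.map_apply, Matrix.zero_apply, residue_eq_zero_iff,
        LinearMap.toMatrixAlgEquiv_apply]
      refine Submodule.smul_induction_on (p := fun m => b.repr m i ∈ maximalIdeal R)
        (h (LinearMap.mem_range_self _ (b j))) (fun a ha m _ => ?_) (fun m m' hm hm' => ?_)
      · rw [map_smul, Finsupp.smul_apply, smul_eq_mul]; exact Ideal.mul_mem_right _ _ ha
      · rw [map_add, Finsupp.add_apply]; exact add_mem hm hm'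
    · rintro h _ ⟨w, rfl⟩
      rw [← b.sum_repr w, map_sum]
      refine Submodule.sum_mem _ fun j _ => ?_
      rw [map_smul]
      refine Submodule.smul_mem _ _ ?_
      rw [← b.sum_repr ((f ^ k) (b j))]
      refine Submodule.sum_mem _ fun i _ => Submodule.smul_mem_smul ?_ Submodule.mem_top
      have := congrFun (congrFun h i) j
      rw [RingHom.mapMatrix_apply, Matrix.map_apply, Matrix.zero_apply, residue_eq_zero_iff,
        LinearMap.toMatrixAlgEquiv_apply] at this
      exact this
  rw [hmem]
  have hnil : IsNilpotent (Matrix.toLin' A) := ⟨N, by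
    rw [← Matrix.toLin'_pow, (hmem N).mp hf, map_zero]⟩
  have h1 := LinearMap.aeval_self_charpoly (Matrix.toLin' A)
  rw [hnil.charpoly_eq_X_pow_finrank, Module.finrank_fin_fun, map_pow, Polynomial.aeval_X,
    ← Matrix.toLin'_pow, LinearEquiv.map_eq_zero_iff] at h1
  exact h1

end Fermat.Agent.LL
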