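/-
Level lowering by patching: generators of the maximal ideal of the Hecke ring: the uniformiser, the
local coordinates at the twisted primes and as many further elements as the Selmer bound.
-/
import Fermat.Agent.LL.Setting
import Fermat.Agent.LL.Gen.Coords
import Fermat.Agent.LL.TWSel
import Fermat.Agent.LL.Gen.Deriv
import Fermat.Agent.LL.Gen.Central

set_option autoImplicit false
set_option linter.style.haveILetI false

noncomputable section

open IsLocalRing
open Fermat.Agent.Galois (GQ)
open Fermat.Agent.GalRep.Level (cycM)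

namespace Fermat.Agent.LL

variable {p : ℕ} [Fact p.Prime] {O : Type} [CommRing O] [IsDomain O] [IsDiscreteValuationRing O]
  [IsAdicComplete (maximalIdeal O) O] [Finite (ResidueField O)]
  [Algebra ℤ_[p] O] [Module.Finite ℤ_[p] O] [CharZero O]
  {ρbar : ResidualGaloisRep (ResidueField O)} {N : ℕ} [NeZero N] {S sig Q : Finset ℕ} {q n : ℕ}
  {a : ℕ → O}

set_option maxHeartbeats 4000000 in
/-- **Generators.** -/
theorem exists_generators (H : Setting p O ρbar N S sig q a)
    (X : Auto.LevelOut p O ρbar N S sig Q q n) (hQ : ∀ v ∈ Q, v.Prime ∧ v ∉ S)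
    (b₀ : Module.Basis (Fin 2) (ResidueField O) ρbar.V) {g₀ : ℕ}
    (hsel : ∀ (m : ℕ) (c : Fin m → GQ → Deform.Mat2 (ResidueField O)),
      (∀ i, IsSelClass p (resMat ρbar b₀) S sig Q (c i)) →
        IndepModCoboundary (resMat ρbar b₀) c → m ≤ g₀)
    (b : Module.Basis (Fin 2) X.T X.ρ.V) {ζ h ϖ : O} (hζ : IsPrimitiveRoot ζ p) (hh : 2 * h = 1)
    (hϖ : Irreducible ϖ) (A : sig → ValuationSubring (AlgebraicClosure ℚ))
    (hA : ∀ l : sig, (A l).LiesOverPrime (l : ℕ)) (τ φ : sig → GQ)
    (hτ : ∀ l : sig, τ l ∈ (A l).inertiaSubgroupIn ℚ)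
    (hτζ : ∀ (l : sig) [NeZero (l : ℕ)], (X.xi l (cycM (l : ℕ) (τ l)) : O) = ζ)
    (hφ : ∀ l : sig, (A l).IsFrobeniusAt (φ l) (l : ℕ)) :
    ∃ x : Fin g₀ → X.T, (∀ i, x i ∈ maximalIdeal X.T) ∧
      maximalIdeal X.T ≤ Ideal.span ({algebraMap O X.T ϖ} ∪
        Set.range (fun li : sig × Fin 3 =>
          coord h (LinearMap.toMatrixAlgEquiv b (X.ρ.ρ (τ li.1))) li.2) ∪
        Set.range (fun li : sig × Fin 3 =>
          coord h (LinearMap.toMatrixAlgEquiv b (X.ρ.ρ (φ li.1))) li.2) ∪ Set.range x) := by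
  classical
  have hp : p.Prime := Fact.out
  have h5 := H.level.five_le
  set k := ResidueField O with hk
  set ψ := ResidueField.map (algebraMap O X.T) with hψ
  have hψbij : Function.Bijective ψ := by
    refine ⟨ψ.injective, fun y => ?_⟩
    obtain ⟨o, ho⟩ := X.residue_surjective y
    exact ⟨residue O o, by rw [hψ, ResidueField.map_residue]; exact ho⟩
  set ψe := RingEquiv.ofBijective ψ hψbij with hψe
  set π : X.T →+* k := ψe.symm.toRingHom.comp (residue X.T) with hπdef
  have hπO : ∀ o, π (algebraMap O X.T o) = residue O o := fun o => by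
    show ψe.symm (residue X.T (algebraMap O X.T o)) = _
    rw [RingEquiv.symm_apply_eq]
    exact (ResidueField.map_residue (algebraMap O X.T) o).symm
  have hπ0 : ∀ {t}, π t = 0 ↔ t ∈ maximalIdeal X.T := fun {t} => by
    show ψe.symm (residue X.T t) = 0 ↔ _
    rw [RingEquiv.map_eq_zero_iff, residue_eq_zero_iff]
  -- a matrix lifting the residual one
  obtain ⟨r, hr, hrR⟩ := Deform.exists_hasMatrix_lifting X.ρ
    ((show Deform.RHasMatrix ρbar (resMat ρbar b₀) from ⟨b₀, fun σ => rfl⟩).baseChangeAlong ψ)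
    X.residual
  set R := resMat ρbar b₀ with hRdef
  have hR : ∀ σ, (r σ).map π = R σ := fun σ => by
    ext i j
    show ψe.symm (residue X.T (r σ i j)) = R σ i j
    rw [RingEquiv.symm_apply_eq]
    exact congrFun (congrFun (hrR σ) i) j
  obtain ⟨bas, hbas⟩ := id hr
  -- the ideal
  set M := levelMat X b with hM
  set 𝔞 : Ideal X.T := Ideal.span ({algebraMap O X.T ϖ} ∪
    Set.range (fun li : sig × Fin 3 => coord h (M (τ li.1)) li.2) ∪
    Set.range (fun li : sig × Fin 3 => coord h (M (φ li.1)) li.2)) with h𝔞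
  have hϖm : algebraMap O X.T ϖ ∈ maximalIdeal X.T :=
    (mem_maximalIdeal _).mpr fun hu => hϖ.not_isUnit (isUnit_of_map_unit (algebraMap O X.T) ϖ hu)
  have hres : ∀ (l : sig), ∀ σ ∈ (A l).decompositionSubgroup ℚ, ∀ i,
      coord h (M σ) i ∈ maximalIdeal X.T := by
    intro l σ hσ i
    obtain ⟨c, hc⟩ := H.scalar l l.2 _ (hA l) σ hσ
    have e := fun i j => congrFun (congrFun (map_residue_of_scalar X b hc) i) j
    rw [← residue_eq_zero_iff]
    fin_cases i
    · have e0 := e 0 0
      have e1 := e 1 1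
      simp only [Matrix.map_apply, Matrix.smul_apply, Matrix.one_apply_eq] at e0 e1
      simp [coord, hM, e0, e1]
    · have e0 := e 0 1
      simp only [Matrix.map_apply, Matrix.smul_apply] at e0
      simpa [coord, hM] using e0
    · have e0 := e 1 0
      simp only [Matrix.map_apply, Matrix.smul_apply] at e0
      simpa [coord, hM] using e0
  have h𝔞m : 𝔞 ≤ maximalIdeal X.T := by
    rw [h𝔞, Ideal.span_le]
    rintro t ((rfl | ⟨li, rfl⟩) | ⟨li, rfl⟩)
    · exact hϖm
    · refine hres li.1 _ ?_ li.2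
      obtain ⟨t', -, e⟩ := hτ li.1
      rw [← e]
      exact t'.2
    · exact hres li.1 _ (hφ li.1).mem_decompositionSubgroup li.2
  set J : Ideal X.T := 𝔞 ⊔ maximalIdeal X.T ^ 2 with hJdef
  have hJm : J ≤ maximalIdeal X.T := sup_le h𝔞m (Ideal.pow_le_self two_ne_zero)
  have hϖJ : algebraMap O X.T ϖ ∈ J := Ideal.mem_sup_left (Ideal.subset_span (.inl (.inl rfl)))
  have hOJ : ∀ o ∈ maximalIdeal O, Ideal.Quotient.mk J (algebraMap O X.T o) = 0 := by
    intro o ho
    rw [hϖ.maximalIdeal_eq, Ideal.mem_span_singleton'] at ho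
    obtain ⟨c, rfl⟩ := ho
    rw [Ideal.Quotient.eq_zero_iff_mem, map_mul]
    exact Ideal.mul_mem_left _ _ hϖJ
  -- the tangent algebra over the residue field
  let ι : k →+* X.T ⧸ J :=
    Ideal.Quotient.lift (maximalIdeal O) ((Ideal.Quotient.mk J).comp (algebraMap O X.T)) hOJ
  letI : Algebra k (X.T ⧸ J) := ι.toAlgebra
  haveI : IsScalarTower O k (X.T ⧸ J) := IsScalarTower.of_algebraMap_eq fun o => rfl
  haveI : Module.Finite O (X.T ⧸ J) :=
    Module.Finite.of_surjective (Ideal.Quotient.mkₐ O J).toLinearMap Ideal.Quotient.mk_surjective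
  haveI : Module.Finite k (X.T ⧸ J) := Module.Finite.of_restrictScalars_finite O k _
  let πb : X.T ⧸ J →+* k := Ideal.Quotient.lift J π fun t ht => hπ0.mpr (hJm ht)
  have hπbι : ∀ c : k, πb (algebraMap k (X.T ⧸ J) c) = c := fun c => by
    obtain ⟨o, rfl⟩ := residue_surjective c
    exact hπO o
  let πL : (X.T ⧸ J) →ₗ[k] k :=
    { toFun := πb
      map_add' := πb.map_add
      map_smul' := fun c x => by
        rw [RingHom.id_apply, Algebra.smul_def, map_mul, hπbι, smul_eq_mul] }
  let δ : (X.T ⧸ J) →ₗ[k] (X.T ⧸ J) := LinearMap.id - (Algebra.linearMap k _).comp πL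
  have hδ : ∀ x, δ x = x - algebraMap k _ (πb x) := fun x => rfl
  have hπδ : ∀ x, πb (δ x) = 0 := fun x => by rw [hδ, map_sub, hπbι, sub_self]
  have hδmul : ∀ x y, δ x * δ y = 0 := by
    intro x y
    obtain ⟨t, ht⟩ := Ideal.Quotient.mk_surjective (δ x)
    obtain ⟨t', ht'⟩ := Ideal.Quotient.mk_surjective (δ y)
    rw [← ht, ← ht', ← map_mul, Ideal.Quotient.eq_zero_iff_mem]
    refine Ideal.mem_sup_right ?_
    rw [pow_two]
    exact Ideal.mul_mem_mul (hπ0.mp (by have := hπδ x; rw [← ht] at this; exact this))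
      (hπ0.mp (by have := hπδ y; rw [← ht'] at this; exact this))
  have hδleib : ∀ x y, δ (x * y) = πb x • δ y + πb y • δ x := by
    intro x y
    have e := hδmul x y
    simp only [hδ] at e
    simp only [hδ, Algebra.smul_def, map_mul]
    linear_combination e
  let tan : ((X.T ⧸ J) →ₗ[k] k) → Tan π := fun f =>
    { D := (f.comp δ).toAddMonoidHom.comp (Ideal.Quotient.mk J).toAddMonoidHom
      leib := fun x y => by
        show f (δ (Ideal.Quotient.mk J (x * y))) =
          π x * f (δ (Ideal.Quotient.mk J y)) + f (δ (Ideal.Quotient.mk J x)) * π y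
        rw [map_mul, hδleib, map_add, map_smul, map_smul, smul_eq_mul, smul_eq_mul,
          mul_comm (f (δ _)) (π y)]
        rfl }
  have htan : ∀ f t, (tan f).D t = f (δ (Ideal.Quotient.mk J t)) := fun f t => rfl
  have htanO : ∀ f o, (tan f).D (algebraMap O X.T o) = 0 := fun f o => by
    rw [htan, show δ (Ideal.Quotient.mk J (algebraMap O X.T o)) = 0 from ?_, map_zero]
    rw [hδ]
    show _ - algebraMap k _ (π (algebraMap O X.T o)) = _
    rw [hπO]
    exact sub_self _
  have htanJ : ∀ f, ∀ t ∈ J, (tan f).D t = 0 := fun f t ht => by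
    rw [htan, Ideal.Quotient.eq_zero_iff_mem.mpr ht, map_zero, map_zero]
  set W := LinearMap.range δ
  let d := Module.finrank k W
  let w : Module.Basis (Fin d) k W := Module.finBasis k W
  let f : Fin d → ((X.T ⧸ J) →ₗ[k] k) := fun i =>
    ((LinearMap.toSpanSingleton k k 1).comp (w.coord i)).comp δ.rangeRestrict
  have hδW : ∀ v : W, δ (v : X.T ⧸ J) = (v : X.T ⧸ J) := by
    rintro ⟨_, x, rfl⟩
    show δ (δ x) = δ x
    rw [hδ (δ x), hπδ, map_zero, sub_zero]
  have hfW : ∀ i x, f i x = w.repr (δ.rangeRestrict x) i := fun i x => by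
    simp [f, Module.Basis.coord_apply]
  have hrR' : ∀ i (v : W), f i (v : X.T ⧸ J) = w.repr v i := fun i v => by
    rw [hfW]
    congr 2
    exact Subtype.ext (hδW v)
  choose x₀ hx₀ using fun i => Ideal.Quotient.mk_surjective ((w i : W) : X.T ⧸ J)
  have hπx : ∀ i, π (x₀ i) = 0 := fun i => by
    have : πb (δ ((w i : W) : X.T ⧸ J)) = 0 := hπδ _
    rw [hδW, ← hx₀] at this
    exact this
  have hDx : ∀ i j, (tan (f i)).D (x₀ j) = if j = i then 1 else 0 := fun i j => by
    rw [htan, hx₀, hδW, hrR', w.repr_self, Finsupp.single_apply]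
  set c : Fin d → GQ → Deform.Mat2 k := fun i => (tan (f i)).cocycle r R
  -- Selmer classes
  have hdet : ∀ g σ, (tan g).D (r σ).det = 0 := fun g σ => by
    rw [← hbas σ, LinearMap.det_toMatrix, X.det_eq, htanO]
  have hsel' : ∀ i, IsSelClass p R S sig Q (c i) := fun i =>
    { trace_eq_zero := fun σ => (tan (f i)).trace_cocycle hR (hdet _ σ)
      map_mul := (tan (f i)).map_mul hR
      finite_level := by
        obtain ⟨L, hL, hLc⟩ := Deform.HasMatrix.matCts hr 2
        refine ⟨L, hL, fun σ hσ => (tan (f i)).cocycle_eq_zero_of_map r R ?_⟩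
        ext u v
        have h1 := htanJ (f i) _ (Ideal.mem_sup_right (hLc σ hσ u v))
        rw [Matrix.sub_apply, map_sub, sub_eq_zero] at h1
        rw [Matrix.map_apply, Matrix.zero_apply, h1]
        rcases eq_or_ne u v with rfl | huv
        · rw [Matrix.one_apply_eq]; exact (tan (f i)).D_one
        · rw [Matrix.one_apply_ne huv, map_zero]
      unramified := fun l hl hlS hlQ B hB σ hσ => (tan (f i)).cocycle_eq_zero_of_eq_one r R (by
        rw [← hbas σ, X.unramified l hl hlS hlQ B hB σ hσ, LinearMap.toMatrix_one])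
      flat := (tan (f i)).hasFlatLift hR hr X.flat
        (fun y => by
          obtain ⟨o, rfl⟩ := residue_surjective y
          exact ⟨_, hπO o, htanO _ o⟩)
        (hπx i) (by rw [hDx, if_pos rfl])
      unipotent := fun l hl hlp hls B hB σ hσ => by
        have hch := X.unipotent l (H.prime_S l hl) (H.steinberg l hl hlp hls).1 hls B hB σ hσ
        rw [← LinearMap.charpoly_toMatrix (X.ρ.ρ σ) bas, hbas, Matrix.charpoly_fin_two]
          at hch
        have htr : (r σ).trace = ((2 : ℕ) : X.T) := by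
          have := congrArg (fun P => Polynomial.coeff P 1) hch
          simp [sub_sq, Polynomial.coeff_X_pow, Polynomial.coeff_one, Polynomial.coeff_ofNat_mul] at this
          simpa using this
        rw [← Tan.D_trace, htr, Tan.map_natCast]
      trivial_sig := fun l hl B hB σ hσ => by
        haveI : NeZero l := ⟨(H.prime_S l (H.sig_sub hl)).ne_zero⟩
        have hpJ : (p : X.T) ∈ J := by
          have hpm : (p : O) ∈ maximalIdeal O := by
            rw [mem_maximalIdeal, mem_nonunits_iff]
            intro hu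
            have hmax : (maximalIdeal O).comap (algebraMap ℤ_[p] O) = maximalIdeal ℤ_[p] :=
              IsLocalRing.eq_maximalIdeal (Ideal.isMaximal_comap_of_isIntegral_of_isMaximal _)
            have hmem : (p : ℤ_[p]) ∈ maximalIdeal ℤ_[p] := PadicInt.p_nonunit
            rw [← hmax, Ideal.mem_comap, map_natCast] at hmem
            exact hmem hu
          have := hOJ _ hpm
          rwa [Ideal.Quotient.eq_zero_iff_mem, map_natCast] at this
        haveI : NeZero ((⟨l, hl⟩ : sig) : ℕ) := ‹NeZero l›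
        have hc := decomposition_le_centralMod H X b hζ hh ⟨l, hl⟩ (hA _) (hτ _) (hτζ ⟨l, hl⟩)
          (hφ _) (J := J) le_sup_right hpJ
          (fun u => Ideal.mem_sup_left (Ideal.subset_span (.inl (.inr ⟨(⟨l, hl⟩, u), rfl⟩))))
          (fun u => Ideal.mem_sup_left (Ideal.subset_span (.inr ⟨(⟨l, hl⟩, u), rfl⟩))) hB hσ
        let U : (Deform.Mat2 X.T)ˣ := ⟨bas.toMatrix b, b.toMatrix bas,
          bas.toMatrix_mul_toMatrix_flip b, b.toMatrix_mul_toMatrix_flip bas⟩
        have hc' := entries_of_mem_centralMod (mem_centralMod_of_conj (M' := r) U (fun g => by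
          show r g * bas.toMatrix b = bas.toMatrix b * LinearMap.toMatrix b b (X.ρ.ρ g)
          rw [← hbas g, linearMap_toMatrix_mul_basis_toMatrix,
            basis_toMatrix_mul_linearMap_toMatrix]) hc)
        obtain ⟨g01, g10, g00⟩ := hc'
        have e : ∀ u v, π (r σ u v) = R σ u v := fun u v => congrFun (congrFun (hR σ) u) v
        refine (tan (f i)).cocycle_eq_zero_of_scalar hR ?_ (htanJ _ _ g01) (htanJ _ _ g10) ?_ ?_ ?_
          ?_ (hdet _ σ)
        · intro h2
          have := congrArg (residue O) hh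
          rw [map_mul, map_one, map_ofNat, show (2 : ResidueField O) = 0 from h2, zero_mul] at this
          exact zero_ne_one this
        · rw [← sub_eq_zero, ← map_sub]; exact htanJ _ _ g00
        · rw [← e]; exact hπ0.mpr (hJm g01)
        · rw [← e]; exact hπ0.mpr (hJm g10)
        · rw [← e, ← e, ← sub_eq_zero, ← map_sub]; exact hπ0.mpr (hJm g00) }
  have hind : IndepModCoboundary R c := by
    rintro e ⟨C, -, hC⟩
    set g := ∑ i, e i • f i with hg
    have hcg : ∀ σ, (tan g).cocycle r R σ = ∑ i, e i • c i σ := fun σ => by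
      simp only [c, Tan.cocycle]
      rw [show (r σ).map (tan g).D = ∑ i, e i • (r σ).map (tan (f i)).D from ?_, Finset.sum_mul]
      · simp only [Matrix.smul_mul]
      ext u v
      simp only [Matrix.sum_apply, Matrix.smul_apply, Matrix.map_apply, htan, hg,
        LinearMap.sum_apply, LinearMap.smul_apply]
    have htr : ∀ σ, (tan g).D (r σ).trace = 0 := fun σ => by
      rw [Tan.D_trace (r := r) (R := R), hcg, hC, sub_mul, mul_assoc (R σ * C), ← map_mul,
        inv_mul_cancel, map_one, mul_one, Matrix.trace_sub, Matrix.trace_mul_comm, sub_self]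
    have hall : ∀ t : X.T, (tan g).D t = 0 := by
      intro t
      have ht : t ∈ Algebra.adjoin O _ := X.adjoin_trace ▸ Algebra.mem_top
      induction ht using Algebra.adjoin_induction with
      | mem s hs =>
        obtain ⟨l, -, -, -, B, -, σ, -, rfl⟩ := hs
        rw [Deform.HasMatrix.trace_eq hr σ]
        exact htr σ
      | algebraMap o => exact htanO _ o
      | add s s' _ _ hs hs' => rw [map_add, hs, hs', add_zero]
      | mul s s' _ _ hs hs' => rw [(tan g).leib, hs, hs', mul_zero, zero_mul, add_zero]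
    funext j
    have hj : g (δ (Ideal.Quotient.mk J (x₀ j))) = 0 := hall (x₀ j)
    rw [hg, LinearMap.sum_apply] at hj
    have h' : ∀ i, f i (δ (Ideal.Quotient.mk J (x₀ j))) = if j = i then 1 else 0 := fun i => hDx i j
    simp only [LinearMap.smul_apply, h', smul_eq_mul, mul_ite, mul_one, mul_zero,
      Finset.sum_ite_eq, Finset.mem_univ, if_true] at hj
    exact hj
  have hd : d ≤ g₀ := hsel d c hsel' hind
  refine ⟨fun i => if hi : (i : ℕ) < d then x₀ ⟨i, hi⟩ else 0, fun i => ?_, ?_⟩
  · dsimp only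
    split_ifs with hi
    · exact hπ0.mp (hπx _)
    · exact zero_mem _
  set x := fun i : Fin g₀ => if hi : (i : ℕ) < d then x₀ ⟨i, hi⟩ else 0 with hx
  set I := Ideal.span ({algebraMap O X.T ϖ} ∪
    Set.range (fun li : sig × Fin 3 =>
      coord h (LinearMap.toMatrixAlgEquiv b (X.ρ.ρ (τ li.1))) li.2) ∪
    Set.range (fun li : sig × Fin 3 =>
      coord h (LinearMap.toMatrixAlgEquiv b (X.ρ.ρ (φ li.1))) li.2) ∪ Set.range x) with hI
  have h𝔞I : 𝔞 ≤ I := Ideal.span_mono Set.subset_union_left
  refine Submodule.le_of_le_smul_of_le_jacobson_bot (IsNoetherian.noetherian _)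
    (IsLocalRing.maximalIdeal_le_jacobson ⊥) (I := maximalIdeal X.T) fun t ht => ?_
  rw [smul_eq_mul]
  have hw : (⟨δ (Ideal.Quotient.mk J t), _, rfl⟩ : W) =
      ∑ i, w.repr ⟨δ (Ideal.Quotient.mk J t), _, rfl⟩ i • w i := (w.sum_repr _).symm
  choose o ho using fun i => residue_surjective (R := O)
    (w.repr ⟨δ (Ideal.Quotient.mk J t), _, rfl⟩ i)
  have hmem : t - ∑ i, algebraMap O X.T (o i) * x₀ i ∈ J := by
    rw [← Ideal.Quotient.eq_zero_iff_mem, map_sub, sub_eq_zero, map_sum]
    have e0 : δ (Ideal.Quotient.mk J t) = Ideal.Quotient.mk J t := by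
      rw [hδ]
      show _ - algebraMap k _ (π t) = _
      rw [hπ0.mpr ht, map_zero, sub_zero]
    have e1 := congrArg (fun v : W => (v : X.T ⧸ J)) hw
    simp only [AddSubmonoidClass.coe_finsetSum, SetLike.val_smul] at e1
    rw [← e0, e1]
    refine Finset.sum_congr rfl fun i _ => ?_
    rw [map_mul, hx₀, ← ho, Algebra.smul_def]
    rfl
  have hsum : ∑ i, algebraMap O X.T (o i) * x₀ i ∈ I := Ideal.sum_mem _ fun i _ => by
    refine Ideal.mul_mem_left _ _ (Ideal.subset_span (Set.mem_union_right _ ⟨⟨i, i.2.trans_le hd⟩, ?_⟩))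
    rw [hx]
    exact dif_pos i.2
  have hJI : J ≤ I ⊔ maximalIdeal X.T * maximalIdeal X.T := by
    rw [hJdef, pow_two]
    exact sup_le_sup_right h𝔞I _
  rw [← sub_add_cancel t (∑ i, algebraMap O X.T (o i) * x₀ i)]
  exact add_mem (hJI hmem) (Ideal.mem_sup_left hsum)

end Fermat.Agent.LL
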